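import Fermat.Agent.H45.SS.Hartogs

/-!
# P-SS / SSH-6, abstract part (helper31): separating functions in the chart language

Setting of `Fermat.Agent.H22.KL`: `A` a DVR with uniformiser `ϖ`, `E` a field over `A`, `y : E` a
transcendental coordinate, `B = chartClosure A E y`, `C = gaussClosure A E ϖ y`.

* `mem_of_mem_chartClosure` : `B ⊆ V` for every finite place `V` of the chart `y`.
* `centre V` : the centre `{s ∈ B | s ∈ 𝔪_V}` of a valuation subring `V ⊇ B` on `B`.
* `not_both_centres_le` : a separating function `e` (regular at `𝔪`, `e ≡ 1` along `V₁`,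
  `e ≡ 0` along `V₂`) shows that `𝔪` does not contain both centres.
* `exists_regular_of_places` : regularity at `𝔪` from LOCAL HARTOGS.
* `mem_of_centredAt_of_quot` : the place-wise regularity of a quotient
  `c * num / (den * θ)` at the places centred at `𝔪` when `den ∉ 𝔪` and `θ` is a unit there.
* `exists_mul_mem_pi_of_not_le` : the consumer form for the ordinary points: if the centre of
  `V₂` is not contained in `𝔪`, every element of the centre of `V₁` becomes divisible by `ϖ`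
  in `B` after multiplication by some `b ∉ 𝔪`.
-/

set_option autoImplicit false

noncomputable section

namespace Fermat.Agent.H31.SS

open Polynomial
open Fermat.Agent.H22.KL
open Fermat.Agent.H45
open Fermat.Agent.H87.KL
open Fermat.Agent.H67.KLConn (PiDvd)

section Basic

variable {A : Type} [CommRing A] {E : Type} [Field E] [Algebra A E]

theorem algebraMap_mem_of_isPlace {V : ValuationSubring E} (hV : IsPlace A E V) (a : A) :
    algebraMap A E a ∈ V := by
  by_cases ha : a = 0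
  · subst ha
    rw [map_zero]
    exact V.zero_mem
  · exact (hV.2.2 a ha).1

theorem aeval_mem_of_isFinitePlace {y : E} {V : ValuationSubring E}
    (hV : IsFinitePlace A E y V) (H : A[X]) : aeval y H ∈ V := by
  rw [aeval_eq_sum_range]
  refine V.toSubring.sum_mem fun i _ => ?_
  rw [Algebra.smul_def]
  exact V.mul_mem _ _ (algebraMap_mem_of_isPlace hV.1 _) (V.toSubring.pow_mem hV.2 i)

/-- `B(y) ⊆ V` for every finite place `V` of the chart `y`. -/
theorem mem_of_mem_chartClosure {y : E} {V : ValuationSubring E}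
    (hV : IsFinitePlace A E y V) {s : E} (hs : s ∈ chartClosure A E y) : s ∈ V := by
  rw [mem_chartClosure_iff] at hs
  obtain ⟨p, hp, hps⟩ := hs
  by_contra hsV
  have hlt : 1 < V.valuation s := by
    rw [← not_le]
    exact fun h => hsV ((V.valuation_le_one_iff s).1 h)
  have hn : p.natDegree ≠ 0 := by
    intro hn
    rw [Polynomial.natDegree_eq_zero] at hn
    obtain ⟨c, rfl⟩ := hn
    have h1 : c = 1 := by simpa using hp.leadingCoeff
    subst h1
    simp at hps
  have hcoef : ∀ i, V.valuation (evX (A := A) y (p.coeff i)) ≤ 1 := fun i =>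
    (V.valuation_le_one_iff _).2 (aeval_mem_of_isFinitePlace hV _)
  rw [Polynomial.eval₂_eq_sum_range, Finset.sum_range_succ, hp.coeff_natDegree, map_one,
    one_mul, add_eq_zero_iff_eq_neg] at hps
  have h2 := congrArg V.valuation hps
  rw [Valuation.map_neg, map_pow] at h2
  refine absurd h2 (ne_of_lt (V.valuation.map_sum_lt ?_ ?_))
  · exact pow_ne_zero _ (ne_of_gt (lt_trans zero_lt_one hlt))
  · intro i hi
    rw [Finset.mem_range] at hi
    rw [map_mul, map_pow]
    exact mul_lt_of_le_one_of_lt (hcoef i) (pow_lt_pow_right₀ hlt hi)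

theorem mul_mem_nonunits {V : ValuationSubring E} {a x : E} (ha : a ∈ V)
    (hx : x ∈ V.nonunits) : a * x ∈ V.nonunits := by
  rw [ValuationSubring.mem_nonunits_iff] at hx ⊢
  rw [map_mul]
  exact mul_lt_of_le_one_of_lt ((V.valuation_le_one_iff a).2 ha) hx

theorem add_mem_nonunits {V : ValuationSubring E} {a x : E} (ha : a ∈ V.nonunits)
    (hx : x ∈ V.nonunits) : a + x ∈ V.nonunits := by
  rw [ValuationSubring.mem_nonunits_iff] at ha hx ⊢
  exact lt_of_le_of_lt (V.valuation.map_add a x) (max_lt ha hx)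

theorem inv_mem_of_not_mem_nonunits {V : ValuationSubring E} {x : E}
    (hx : x ∉ V.nonunits) : x⁻¹ ∈ V := by
  by_contra h
  exact hx ((ValuationSubring.mem_nonunits_iff_or V).2 (Or.inr h))

end Basic

section Separation

variable {A : Type} [CommRing A] {E : Type} [Field E] [Algebra A E]

/-- **Separation.**  If `e` is regular at `𝔪` (`b e ∈ B`, `b ∉ 𝔪`), `e ≡ 1` along `V₁` and
`e ≡ 0` along `V₂`, then `𝔪` does not contain both centres: `𝔪` lies on at most one of the two
components. -/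
theorem not_both_centres_le {y : E} (V₁ V₂ : ValuationSubring E)
    (hB₁ : ∀ s ∈ chartClosure A E y, s ∈ V₁) (hB₂ : ∀ s ∈ chartClosure A E y, s ∈ V₂)
    (𝔪 : Ideal (chartClosure A E y))
    (e : E) (b : chartClosure A E y) (hb : b ∉ 𝔪) (hbe : (b : E) * e ∈ chartClosure A E y)
    (he₁ : e - 1 ∈ V₁.nonunits) (he₂ : e ∈ V₂.nonunits) :
    ¬ ((∀ s : chartClosure A E y, (s : E) ∈ V₁.nonunits → s ∈ 𝔪) ∧
       (∀ s : chartClosure A E y, (s : E) ∈ V₂.nonunits → s ∈ 𝔪)) := by
  rintro ⟨h₁, h₂⟩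
  set c : chartClosure A E y := ⟨(b : E) * e, hbe⟩ with hc
  have hc𝔪 : c ∈ 𝔪 := h₂ c (mul_mem_nonunits (hB₂ _ b.2) he₂)
  have hd : ((c - b : chartClosure A E y) : E) = (b : E) * (e - 1) := by
    rw [Subalgebra.coe_sub, hc]; ring
  have hd𝔪 : c - b ∈ 𝔪 := h₁ (c - b) (by rw [hd]; exact mul_mem_nonunits (hB₁ _ b.2) he₁)
  exact hb (by simpa using 𝔪.sub_mem hc𝔪 hd𝔪)

/-- Place-wise regularity of a quotient `num / (den * θ)`: if `den ∉ 𝔪` and `θ⁻¹` is regular
at the place `V` centred at `𝔪`, the quotient is regular at `V`. -/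
theorem quot_mem_of_centredAt {y : E} {𝔪 : Ideal (chartClosure A E y)}
    {V : ValuationSubring E} (hV : CentredAt A E y 𝔪 V)
    (num den : chartClosure A E y) (hden : den ∉ 𝔪) (θ : E) (hθ : θ⁻¹ ∈ V) :
    (num : E) / ((den : E) * θ) ∈ V := by
  have h1 : (den : E)⁻¹ ∈ V := inv_mem_of_not_mem_nonunits fun h => hden (hV.2 den h)
  have h2 : (num : E) ∈ V := mem_of_mem_chartClosure hV.1 num.2
  rw [div_eq_mul_inv, mul_inv]
  exact V.mul_mem _ _ h2 (V.mul_mem _ _ h1 hθ)

end Separation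

section Hartogs

variable {A : Type} [CommRing A] [IsDomain A] [IsDiscreteValuationRing A]
  {E : Type} [Field E] [Algebra A E] [CharZero E]

/-- **Regularity at `𝔪`** from LOCAL HARTOGS, together with the separation: a function of the
Gauss closure which is regular at all places centred at `𝔪`, `≡ 1` along `V₁` and `≡ 0` along
`V₂` shows that `𝔪` lies on at most one of the two components. -/
theorem not_both_centres_le_of_places (hH : LocalHartogsStatement)
    (hinj : Function.Injective (algebraMap A E))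
    (ϖ : A) (hϖ : Irreducible ϖ) (y : E) (hy : Transcendental A y)
    (hfd : ∃ n : ℕ, Nonempty (Module.Basis (Fin n) (chartField A E y) E))
    (V₁ V₂ : ValuationSubring E)
    (hB₁ : ∀ s ∈ chartClosure A E y, s ∈ V₁) (hB₂ : ∀ s ∈ chartClosure A E y, s ∈ V₂)
    (𝔪 : Ideal (chartClosure A E y)) (h𝔪 : 𝔪.IsMaximal)
    (hϖ𝔪 : algebraMap A (chartClosure A E y) ϖ ∈ 𝔪)
    (e : E) (heC : e ∈ gaussClosure A E ϖ y)
    (heV : ∀ V : ValuationSubring E, CentredAt A E y 𝔪 V → e ∈ V)
    (he₁ : e - 1 ∈ V₁.nonunits) (he₂ : e ∈ V₂.nonunits) :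
    (∃ b : chartClosure A E y, b ∉ 𝔪 ∧ (b : E) * e ∈ chartClosure A E y) ∧
    ¬ ((∀ s : chartClosure A E y, (s : E) ∈ V₁.nonunits → s ∈ 𝔪) ∧
       (∀ s : chartClosure A E y, (s : E) ∈ V₂.nonunits → s ∈ 𝔪)) := by
  obtain ⟨b, hb, hbe⟩ := hH A E hinj ϖ hϖ y hy hfd 𝔪 h𝔪 hϖ𝔪 e heC heV
  exact ⟨⟨b, hb, hbe⟩, not_both_centres_le V₁ V₂ hB₁ hB₂ 𝔪 e b hb hbe he₁ he₂⟩

omit [CharZero E] in
/-- **Consumer form (ordinary points).**  Assume the Gauss closure is cut out by the two
valuation rings `V₁`, `V₂`, both with uniformiser `ϖ`.  If `s ∈ B` lies in the centre of `V₂`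
and `z ∈ B` lies in the centre of `V₁`, then `s z ∈ ϖ B`.  (So at a maximal ideal `𝔪` which does
not contain the centre of `V₂`, the centre of `V₁` is `ϖ B_𝔪`.) -/
theorem piDvd_mul_of_mem_centres
    (hinj : Function.Injective (algebraMap A E))
    (ϖ : A) (hϖ : Irreducible ϖ) (y : E) (hy : Transcendental A y)
    (V₁ V₂ : ValuationSubring E)
    (hC : ∀ z : E, z ∈ V₁ → z ∈ V₂ → z ∈ gaussClosure A E ϖ y)
    (hϖ₁ : ∀ z ∈ V₁.nonunits, z / algebraMap A E ϖ ∈ V₁)
    (hϖ₂ : ∀ z ∈ V₂.nonunits, z / algebraMap A E ϖ ∈ V₂)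
    (hB₁ : ∀ s ∈ chartClosure A E y, s ∈ V₁) (hB₂ : ∀ s ∈ chartClosure A E y, s ∈ V₂)
    (s z : chartClosure A E y) (hs : (s : E) ∈ V₂.nonunits) (hz : (z : E) ∈ V₁.nonunits) :
    PiDvd ϖ (chartClosure A E y) 1 ((s : E) * z) := by
  have hϖ0 : algebraMap A E ϖ ≠ 0 := fun h => hϖ.ne_zero (hinj (by rw [h, map_zero]))
  have h1 : (s : E) * z ∈ V₁.nonunits := mul_mem_nonunits (hB₁ _ s.2) hz
  have h2 : (s : E) * z ∈ V₂.nonunits := by
    rw [mul_comm]; exact mul_mem_nonunits (hB₂ _ z.2) hs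
  refine Fermat.Agent.H34.lemmaT A E hinj ϖ hϖ y hy _ ((s * z : chartClosure A E y)).2
    ⟨(s : E) * z / algebraMap A E ϖ, hC _ (hϖ₁ _ h1) (hϖ₂ _ h2), ?_⟩
  field_simp

end Hartogs

end Fermat.Agent.H31.SS
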