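import Fermat.Agent.H31.SS.Haupt9Member

/-!
# P-SS / Hauptmodul data at level 9 (helper31), part 2: the function field of `X₀(9)` is `L(H₉)`

Level-9 twin of `Fermat.Agent.H8.SS.Haupt4Field`.

* `h9S_mem_laurentBaseChange` : `H₉ ∈ laurentBaseChange L (modularFunctionFieldFull N)`
  (`= ModelField L N`) for `9 ∣ N` and every field `L` of characteristic zero;
* `jq_mem_adjoin_h9S`, `jq3_mem_adjoin_h9S`, `jq9_mem_adjoin_h9S` : `j(t)`, `j(t³)`, `j(t⁹)`
  lie in `L(H₉)`;
* `laurentBaseChange_nine_le` : `laurentBaseChange L (modularFunctionFieldFull 9) ≤ L(H₉)`;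
* `aeval_h9S_injective`, `coeff_mem_of_aeval_h9S` (triangularity).
-/

set_option autoImplicit false
set_option maxHeartbeats 400000

noncomputable section

open ModularCurve IntermediateField
open Fermat.Agent.H1.ESD

namespace Fermat.Agent.H31.SS

section Member

variable (L : Type) [Field L] [Algebra ℚ L]

/-- `H₉` lies in the model field of level `N`, `9 ∣ N`, over every field of characteristic `0` -/
theorem h9S_mem_laurentBaseChange (N : ℕ) [NeZero N] (hN : 9 ∣ N) :
    h9S L ∈ laurentBaseChange L (modularFunctionFieldFull N) := by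
  have h2 := coeffEmb_mem_laurentBaseChange L (h9S_rat_mem_full N hN)
  rwa [coeffEmb_h9S] at h2

end Member

section Field

variable (L : Type*) [Field L]

/-- the quadratic factor `H² + 9 H + 27` (the two conjugate cusps) is not zero -/
theorem h9S_quad_ne_zero : h9S L ^ 2 + 9 * h9S L + 27 ≠ 0 := by
  intro h
  have h1 := h9_cube L
  rw [h, mul_zero] at h1
  exact h9S_ne_zero L (pow_eq_zero_iff (by norm_num) |>.mp h1)

theorem t3_ne_zero' : t3 L ≠ 0 := by
  intro h
  have h1 := h9_cube L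
  rw [h, zero_mul] at h1
  exact h9S_ne_zero L (pow_eq_zero_iff (by norm_num) |>.mp h1)

theorem t3c_ne_zero : t3c L ≠ 0 := by
  rw [h9_t3c]
  exact mul_ne_zero (h9S_ne_zero L) (h9S_quad_ne_zero L)

theorem h9S_mem_adjoin : h9S L ∈ L⟮h9S L⟯ := mem_adjoin_simple_self L _

theorem ofNat_mem_adjoin_h9S (n : ℕ) [n.AtLeastTwo] :
    (OfNat.ofNat n : LaurentSeries L) ∈ L⟮h9S L⟯ := by
  have h : (OfNat.ofNat n : LaurentSeries L) = algebraMap L (LaurentSeries L) (OfNat.ofNat n) := by
    rw [map_ofNat]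
  rw [h]
  exact (L⟮h9S L⟯).algebraMap_mem _

theorem h9S_quad_mem_adjoin : h9S L ^ 2 + 9 * h9S L + 27 ∈ L⟮h9S L⟯ :=
  add_mem (add_mem (pow_mem (h9S_mem_adjoin L) 2)
    (mul_mem (ofNat_mem_adjoin_h9S L 9) (h9S_mem_adjoin L))) (ofNat_mem_adjoin_h9S L 27)

/-- `t₃ = H³ / (H² + 9 H + 27) ∈ L(H)` -/
theorem t3_mem_adjoin_h9S : t3 L ∈ L⟮h9S L⟯ := by
  have h : t3 L = h9S L ^ 3 / (h9S L ^ 2 + 9 * h9S L + 27) :=
    eq_div_of_mul_eq (h9S_quad_ne_zero L) (h9_cube L).symm
  rw [h]
  exact div_mem (pow_mem (h9S_mem_adjoin L) 3) (h9S_quad_mem_adjoin L)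

/-- `t₃(t³) = H (H² + 9 H + 27) ∈ L(H)` -/
theorem t3c_mem_adjoin_h9S : t3c L ∈ L⟮h9S L⟯ := by
  rw [h9_t3c]
  exact mul_mem (h9S_mem_adjoin L) (h9S_quad_mem_adjoin L)

/-- `j ∈ L(H)` -/
theorem jq_mem_adjoin_h9S : jqModC L ∈ L⟮h9S L⟯ := by
  have hne : h9S L ^ 9 * (h9S L ^ 2 + 9 * h9S L + 27) ≠ 0 :=
    mul_ne_zero (pow_ne_zero 9 (h9S_ne_zero L)) (h9S_quad_ne_zero L)
  have h : jqModC L = (h9S L + 9) ^ 3 * (h9S L ^ 3 + 243 * h9S L ^ 2 + 2187 * h9S L + 6561) ^ 3 /
      (h9S L ^ 9 * (h9S L ^ 2 + 9 * h9S L + 27)) := by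
    apply eq_div_of_mul_eq hne
    rw [← h9_j]
    ring
  rw [h]
  have hH := h9S_mem_adjoin L
  exact div_mem (mul_mem (pow_mem (add_mem hH (ofNat_mem_adjoin_h9S L 9)) 3)
    (pow_mem (add_mem (add_mem (add_mem (pow_mem hH 3)
      (mul_mem (ofNat_mem_adjoin_h9S L 243) (pow_mem hH 2)))
      (mul_mem (ofNat_mem_adjoin_h9S L 2187) hH)) (ofNat_mem_adjoin_h9S L 6561)) 3))
    (mul_mem (pow_mem hH 9) (h9S_quad_mem_adjoin L))

/-- `j(t³) ∈ L(H)` -/
theorem jq3_mem_adjoin_h9S : qExpand L 3 (jqModC L) ∈ L⟮h9S L⟯ := by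
  have h : qExpand L 3 (jqModC L) = (t3 L + 27) * (t3 L + 3) ^ 3 / t3 L := by
    apply eq_div_of_mul_eq (t3_ne_zero' L)
    exact t3_rel3 L
  rw [h]
  have ht := t3_mem_adjoin_h9S L
  exact div_mem (mul_mem (add_mem ht (ofNat_mem_adjoin_h9S L 27))
    (pow_mem (add_mem ht (ofNat_mem_adjoin_h9S L 3)) 3)) ht

/-- `j(t⁹) ∈ L(H)` -/
theorem jq9_mem_adjoin_h9S : qExpand L 9 (jqModC L) ∈ L⟮h9S L⟯ := by
  have h : qExpand L 9 (jqModC L) = (t3c L + 27) * (t3c L + 3) ^ 3 / t3c L := by
    apply eq_div_of_mul_eq (t3c_ne_zero L)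
    exact t3c_rel3 L
  rw [h]
  have ht := t3c_mem_adjoin_h9S L
  exact div_mem (mul_mem (add_mem ht (ofNat_mem_adjoin_h9S L 27))
    (pow_mem (add_mem ht (ofNat_mem_adjoin_h9S L 3)) 3)) ht

end Field

section Le

variable (L : Type*) [Field L] [Algebra ℚ L]

theorem coeffEmb_jqd' (d : ℕ) [NeZero d] :
    coeffEmb L (qExpand ℚ d jq) = qExpand L d (jqModC L) := by
  rw [coeffEmb, coeffMap_qExpand, ← jqModC_rat, coeffMap_jqModC]

/-- **the function field of `X₀(9)` over `L` is contained in `L(H₉)`** -/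
theorem laurentBaseChange_nine_le :
    laurentBaseChange L (modularFunctionFieldFull 9) ≤ L⟮h9S L⟯ := by
  rw [laurentBaseChange, adjoin_le_iff]
  rintro _ ⟨y, hy, rfl⟩
  have hy' : y ∈ modularFunctionFieldFull 9 := hy
  rw [modularFunctionFieldFull] at hy'
  have key : ∀ z ∈ IntermediateField.adjoin ℚ (divisorExpansions 9),
      coeffEmb L z ∈ L⟮h9S L⟯ := by
    intro z hz
    induction hz using IntermediateField.adjoin_induction with
    | mem x hx =>
        obtain ⟨d, hd, hdvd, rfl⟩ := hx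
        have := hd
        rw [coeffEmb_jqd']
        have hd9 : d ∈ Nat.divisors 9 := Nat.mem_divisors.mpr ⟨hdvd, by norm_num⟩
        have h9 : Nat.divisors 9 = {1, 3, 9} := by decide
        rw [h9] at hd9
        simp only [Finset.mem_insert, Finset.mem_singleton] at hd9
        rcases hd9 with rfl | rfl | rfl
        · rw [qExpand_one_apply]
          exact jq_mem_adjoin_h9S L
        · exact jq3_mem_adjoin_h9S L
        · exact jq9_mem_adjoin_h9S L
    | algebraMap x =>
        have h : coeffEmb L (algebraMap ℚ (LaurentSeries ℚ) x) =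
            algebraMap L (LaurentSeries L) (algebraMap ℚ L x) := by
          rw [algebraMap_laurentSeries_eq_single, algebraMap_laurentSeries_eq_single, coeffEmb,
            coeffMap_single]
        rw [h]
        exact (L⟮h9S L⟯).algebraMap_mem _
    | add x y _ _ hx hy => rw [map_add]; exact add_mem hx hy
    | inv x _ hx => rw [map_inv₀]; exact inv_mem hx
    | mul x y _ _ hx hy => rw [map_mul]; exact mul_mem hx hy
  exact key y hy'

end Le

/-! ### triangularity: polynomials in `H₉` -/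

section Tri

/-- the Hauptmodul of level 9 over `ℤ` -/
abbrev h9Z : LaurentSeries ℤ := h9S ℤ

theorem h9Z_pow (i : ℕ) :
    h9Z ^ i = HahnSeries.single (-(i : ℤ)) (1 : ℤ) * HahnSeries.ofPowerSeries ℤ ℤ (h9U ^ i) := by
  have h : i • (-1 : ℤ) = -(i : ℤ) := by simp
  have h0 : h9Z = HahnSeries.single (-1 : ℤ) (1 : ℤ) * HahnSeries.ofPowerSeries ℤ ℤ h9U := by
    show h9S ℤ = _
    rw [h9S_eq_single_mul]
    have hmap : PowerSeries.map (Int.castRingHom ℤ) h9U = h9U :=
      PowerSeries.ext fun n => by simp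
    rw [hmap]
  rw [h0, mul_pow, HahnSeries.single_pow, one_pow, h, ← map_pow]

theorem coeff_h9Z_pow_self (i : ℕ) : (h9Z ^ i).coeff (-(i : ℤ)) = 1 := by
  rw [h9Z_pow, HahnSeries.coeff_single_mul, one_mul, sub_neg_eq_add, neg_add_cancel,
    show (0 : ℤ) = ((0 : ℕ) : ℤ) from rfl, HahnSeries.ofPowerSeries_apply_coeff,
    PowerSeries.coeff_zero_eq_constantCoeff, map_pow, constantCoeff_h9U, one_pow]

theorem coeff_h9Z_pow_of_lt {i : ℕ} {n : ℤ} (hn : n < -(i : ℤ)) : (h9Z ^ i).coeff n = 0 := by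
  rw [h9Z_pow, HahnSeries.coeff_single_mul, one_mul]
  exact ofPowerSeries_coeff_of_neg _ (by omega)

variable (L : Type*) [Field L]

theorem coeffMap_h9Z : coeffMap (Int.castRingHom L) h9Z = h9S L := coeffMap_h9S _

theorem h9S_pow_coeff (i : ℕ) (n : ℤ) :
    (h9S L ^ i).coeff n = (((h9Z ^ i).coeff n : ℤ) : L) := by
  rw [← coeffMap_h9Z, ← map_pow, coeffMap_coeff]
  rfl

theorem coeff_aeval_h9S (P : Polynomial L) (n : ℤ) :
    (Polynomial.aeval (h9S L) P).coeff n =
      ∑ i ∈ Finset.range (P.natDegree + 1), P.coeff i * (((h9Z ^ i).coeff n : ℤ) : L) := by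
  rw [Polynomial.aeval_eq_sum_range, HahnSeries.coeff_sum]
  refine Finset.sum_congr rfl fun i _ => ?_
  rw [Algebra.smul_def, algebraMap_laurentSeries_eq_single, HahnSeries.coeff_single_mul, sub_zero,
    h9S_pow_coeff]

/-- the coefficient of `t^(-deg P)` in `P(H)` is the leading coefficient of `P` -/
theorem coeff_aeval_h9S_natDegree (P : Polynomial L) :
    (Polynomial.aeval (h9S L) P).coeff (-(P.natDegree : ℤ)) = P.leadingCoeff := by
  rw [coeff_aeval_h9S, Finset.sum_range_succ, coeff_h9Z_pow_self, Int.cast_one, mul_one,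
    Finset.sum_eq_zero, zero_add, Polynomial.coeff_natDegree]
  intro i hi
  rw [coeff_h9Z_pow_of_lt (by have := Finset.mem_range.mp hi; omega), Int.cast_zero, mul_zero]

/-- **triangularity**: if all coefficients of `P(H)` lie in an additive subgroup `G` of `L`,
so do all coefficients of `P`. -/
theorem coeff_mem_of_aeval_h9S (G : AddSubgroup L) :
    ∀ (d : ℕ) (P : Polynomial L), P.natDegree < d →
      (∀ n, (Polynomial.aeval (h9S L) P).coeff n ∈ G) → ∀ i, P.coeff i ∈ G := by
  intro d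
  induction d with
  | zero => intro P hP; exact absurd hP (Nat.not_lt_zero _)
  | succ d ih =>
    intro P hP hG i
    have hlead : P.leadingCoeff ∈ G := by
      rw [← coeff_aeval_h9S_natDegree]
      exact hG _
    have hdec : P = P.eraseLead + Polynomial.monomial P.natDegree P.leadingCoeff :=
      (Polynomial.eraseLead_add_monomial_natDegree_leadingCoeff P).symm
    have hmon : ∀ n, (Polynomial.aeval (h9S L)
        (Polynomial.monomial P.natDegree P.leadingCoeff)).coeff n ∈ G := by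
      intro n
      rw [Polynomial.aeval_monomial, algebraMap_laurentSeries_eq_single,
        HahnSeries.coeff_single_mul, sub_zero, h9S_pow_coeff, mul_comm, ← zsmul_eq_mul]
      exact G.zsmul_mem hlead _
    have herase : ∀ n, (Polynomial.aeval (h9S L) P.eraseLead).coeff n ∈ G := by
      intro n
      have h1 : Polynomial.aeval (h9S L) P.eraseLead = Polynomial.aeval (h9S L) P -
          Polynomial.aeval (h9S L) (Polynomial.monomial P.natDegree P.leadingCoeff) := by
        rw [← map_sub]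
        congr 1
        exact eq_sub_of_add_eq hdec.symm
      rw [h1, HahnSeries.coeff_sub]
      exact G.sub_mem (hG n) (hmon n)
    have hi : P.eraseLead.coeff i ∈ G := by
      by_cases h0 : P.natDegree = 0
      · have : P.eraseLead = 0 := by
          rw [Polynomial.eq_C_of_natDegree_eq_zero h0]
          exact Polynomial.eraseLead_C _
        rw [this, Polynomial.coeff_zero]
        exact G.zero_mem
      · apply ih P.eraseLead ?_ herase
        have := Polynomial.eraseLead_natDegree_lt_or_eraseLead_eq_zero P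
        rcases this with h | h
        · omega
        · rw [h, Polynomial.natDegree_zero]
          omega
    rw [hdec, Polynomial.coeff_add, Polynomial.coeff_monomial]
    split_ifs
    · exact G.add_mem hi hlead
    · rw [add_zero]
      exact hi

/-- `H₉` is transcendental: evaluation at `H₉` is injective -/
theorem aeval_h9S_injective : Function.Injective (Polynomial.aeval (R := L) (h9S L)) := by
  rw [injective_iff_map_eq_zero]
  intro P hP
  ext i
  have h := coeff_mem_of_aeval_h9S L ⊥ (P.natDegree + 1) P (Nat.lt_succ_self _) (by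
    intro n
    rw [hP, HahnSeries.coeff_zero]
    exact AddSubgroup.zero_mem _) i
  rw [Polynomial.coeff_zero]
  exact (AddSubgroup.mem_bot).mp h

end Tri

end Fermat.Agent.H31.SS
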