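import Mathlib

/-!
# P-SS / SSH-6 (helper31): the algebraic derivative `d f / d x` in a function field

Setting: `E / K` a field extension in characteristic `0`, `x : E` such that `E` is algebraic over
`K(x)`.  A *differential embedding* of `E / K` is a ring homomorphism `ι : E → M` into a field
`M` together with an additive map `d : M → M` satisfying the Leibniz rule and vanishing on the
constants `ι K`.

* `DiffEmb.exists_common_deriv` : for two differential embeddings `D₁`, `D₂` with
  `d₁ (ι₁ x) ≠ 0` and every `f : E` there is `u : E` ("`u = d f / d x`") with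
  `d_i (ι_i f) = ι_i u * d_i (ι_i x)` for `i = 1, 2`.
* `DiffEmb.exists_deriv` : the case `D₁ = D₂`: `d (ι f) / d (ι x) ∈ ι E`.
* `DiffEmb.deriv_natural` : if `d₁ (ι₁ f) = ι₁ u * d₁ (ι₁ x)` then
  `d₂ (ι₂ f) = ι₂ u * d₂ (ι₂ x)`.

Applications (row SSH-6): `M = K₁((t))`, `d = t d/dt`: the function
`κ = (1/q) d H_q / d H` lies in the model field; naturality with respect to the Atkin-Lehner
automorphism; naturality with respect to the local uniformisations at the places.
-/

set_option autoImplicit false
set_option linter.style.haveILetI false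

noncomputable section

namespace Fermat.Agent.H31.SS

open Polynomial

/-- A differential embedding of `E / K`: a ring homomorphism into a field with an additive map
satisfying the Leibniz rule and vanishing on the constants. -/
structure DiffEmb (K E M : Type*) [Field K] [Field E] [Algebra K E] [Field M] where
  /-- the embedding -/
  ι : E →+* M
  /-- the derivation -/
  d : M → M
  d_add : ∀ a b : M, d (a + b) = d a + d b
  d_mul : ∀ a b : M, d (a * b) = a * d b + d a * b
  d_const : ∀ c : K, d (ι (algebraMap K E c)) = 0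

namespace DiffEmb

section single

variable {K E M : Type*} [Field K] [Field E] [Algebra K E] [Field M] (D : DiffEmb K E M)

theorem d_zero : D.d 0 = 0 := by
  have h := D.d_add 0 0
  rw [add_zero] at h
  exact left_eq_add.mp h

theorem d_one : D.d 1 = 0 := by
  have h := D.d_mul 1 1
  rw [mul_one, one_mul, mul_one] at h
  exact left_eq_add.mp h

theorem d_neg (a : M) : D.d (-a) = - D.d a := by
  have h := D.d_add a (-a)
  rw [add_neg_cancel, D.d_zero] at h
  exact eq_neg_of_add_eq_zero_right h.symm

theorem d_sub (a b : M) : D.d (a - b) = D.d a - D.d b := by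
  rw [sub_eq_add_neg, D.d_add, D.d_neg, ← sub_eq_add_neg]

theorem d_pow (a : M) (n : ℕ) : D.d (a ^ (n + 1)) = ((n + 1 : ℕ) : M) * a ^ n * D.d a := by
  induction n with
  | zero => simp
  | succ n ih =>
    rw [pow_succ, D.d_mul, ih]
    push_cast
    ring

theorem d_inv {a : M} (ha : a ≠ 0) : D.d a⁻¹ = - D.d a / a ^ 2 := by
  have h := D.d_mul a a⁻¹
  rw [mul_inv_cancel₀ ha, D.d_one] at h
  have h2 : a⁻¹ * a = 1 := inv_mul_cancel₀ ha
  rw [eq_div_iff (pow_ne_zero 2 ha)]
  linear_combination (-a) * h + (-D.d a) * h2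

/-- `u` is the derivative of `f` with respect to `x`, as seen by the differential embedding. -/
def IsDer (x f u : E) : Prop := D.d (D.ι f) = D.ι u * D.d (D.ι x)

variable {D}
variable {x : E}

theorem IsDer.const (c : K) : D.IsDer x (algebraMap K E c) 0 := by
  rw [IsDer, D.d_const, map_zero, zero_mul]

theorem IsDer.self : D.IsDer x x 1 := by
  rw [IsDer, map_one, one_mul]

theorem IsDer.add {f g u v : E} (hf : D.IsDer x f u) (hg : D.IsDer x g v) :
    D.IsDer x (f + g) (u + v) := by
  rw [IsDer] at hf hg ⊢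
  rw [map_add, D.d_add, hf, hg, map_add, add_mul]

theorem IsDer.neg {f u : E} (hf : D.IsDer x f u) : D.IsDer x (-f) (-u) := by
  rw [IsDer] at hf ⊢
  rw [map_neg, D.d_neg, hf, map_neg, neg_mul]

theorem IsDer.mul {f g u v : E} (hf : D.IsDer x f u) (hg : D.IsDer x g v) :
    D.IsDer x (f * g) (f * v + u * g) := by
  rw [IsDer] at hf hg ⊢
  rw [map_mul, D.d_mul, hf, hg, map_add, map_mul, map_mul]
  ring

theorem IsDer.pow {f u : E} (hf : D.IsDer x f u) (n : ℕ) :
    D.IsDer x (f ^ (n + 1)) (((n + 1 : ℕ) : E) * f ^ n * u) := by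
  rw [IsDer] at hf ⊢
  rw [map_pow, D.d_pow, hf, map_mul, map_mul, map_pow, map_natCast]
  ring

theorem IsDer.inv {f u : E} (hf : D.IsDer x f u) : D.IsDer x f⁻¹ (- u / f ^ 2) := by
  rw [IsDer] at hf ⊢
  by_cases h0 : f = 0
  · subst h0
    simp [D.d_zero]
  · have h1 : D.ι f ≠ 0 := (map_ne_zero D.ι).mpr h0
    rw [map_inv₀, D.d_inv h1, hf, map_div₀, map_neg, map_pow]
    ring

end single

section pair

variable {K E M₁ M₂ : Type*} [Field K] [Field E] [Algebra K E] [Field M₁] [Field M₂]
  (D₁ : DiffEmb K E M₁) (D₂ : DiffEmb K E M₂)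

/-- The subfield of `E` of the elements having a common derivative with respect to `x`. -/
def derField (x : E) : IntermediateField K E where
  carrier := {f | ∃ u : E, D₁.IsDer x f u ∧ D₂.IsDer x f u}
  mul_mem' := by
    rintro f g ⟨u, hu₁, hu₂⟩ ⟨v, hv₁, hv₂⟩
    exact ⟨_, hu₁.mul hv₁, hu₂.mul hv₂⟩
  add_mem' := by
    rintro f g ⟨u, hu₁, hu₂⟩ ⟨v, hv₁, hv₂⟩
    exact ⟨_, hu₁.add hv₁, hu₂.add hv₂⟩
  algebraMap_mem' := fun c => ⟨0, IsDer.const c, IsDer.const c⟩
  inv_mem' := by
    rintro f ⟨u, hu₁, hu₂⟩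
    exact ⟨_, hu₁.inv, hu₂.inv⟩

variable {D₁ D₂}

theorem mem_derField {x f : E} :
    f ∈ derField D₁ D₂ x ↔ ∃ u : E, D₁.IsDer x f u ∧ D₂.IsDer x f u := Iff.rfl

theorem self_mem_derField (x : E) : x ∈ derField D₁ D₂ x := ⟨1, IsDer.self, IsDer.self⟩

theorem adjoin_le_derField (x : E) : IntermediateField.adjoin K {x} ≤ derField D₁ D₂ x := by
  rw [IntermediateField.adjoin_le_iff]
  rintro y hy
  rw [Set.mem_singleton_iff] at hy
  rw [hy]
  exact self_mem_derField x

/-- The chain rule for a polynomial with coefficients in `derField`, in existential form, for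
both embeddings at once. -/
theorem exists_chain (x f : E) (p : (derField D₁ D₂ x)[X]) :
    ∃ U : E,
      D₁.d (D₁.ι (aeval f p)) =
        D₁.ι U * D₁.d (D₁.ι x) + D₁.ι (aeval f (derivative p)) * D₁.d (D₁.ι f) ∧
      D₂.d (D₂.ι (aeval f p)) =
        D₂.ι U * D₂.d (D₂.ι x) + D₂.ι (aeval f (derivative p)) * D₂.d (D₂.ι f) := by
  induction p using Polynomial.induction_on' with
  | add p r hp hr =>
    obtain ⟨U, hU₁, hU₂⟩ := hp
    obtain ⟨V, hV₁, hV₂⟩ := hr
    refine ⟨U + V, ?_, ?_⟩
    · rw [map_add, map_add, D₁.d_add, hU₁, hV₁, derivative_add, map_add, map_add, map_add]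
      ring
    · rw [map_add, map_add, D₂.d_add, hU₂, hV₂, derivative_add, map_add, map_add, map_add]
      ring
  | monomial n c =>
    obtain ⟨u, hu₁, hu₂⟩ := c.2
    rw [IsDer] at hu₁ hu₂
    refine ⟨u * f ^ n, ?_, ?_⟩
    · rw [aeval_monomial, derivative_monomial, aeval_monomial, map_mul, map_mul, map_mul,
        map_pow, map_pow, D₁.d_mul]
      have hc : D₁.ι (algebraMap (derField D₁ D₂ x) E c) = D₁.ι (c : E) := rfl
      rw [hc]
      rcases n with _ | n
      · simp [D₁.d_one, hu₁]
      · rw [D₁.d_pow, hu₁]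
        simp only [Nat.add_sub_cancel, map_mul, map_natCast]
        have hc' : D₁.ι (algebraMap (derField D₁ D₂ x) E c) = D₁.ι (c : E) := rfl
        rw [hc']
        push_cast
        ring
    · rw [aeval_monomial, derivative_monomial, aeval_monomial, map_mul, map_mul, map_mul,
        map_pow, map_pow, D₂.d_mul]
      have hc : D₂.ι (algebraMap (derField D₁ D₂ x) E c) = D₂.ι (c : E) := rfl
      rw [hc]
      rcases n with _ | n
      · simp [D₂.d_one, hu₂]
      · rw [D₂.d_pow, hu₂]
        simp only [Nat.add_sub_cancel, map_mul, map_natCast]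
        have hc' : D₂.ι (algebraMap (derField D₁ D₂ x) E c) = D₂.ι (c : E) := rfl
        rw [hc']
        push_cast
        ring

variable [CharZero K]

/-- **The algebraic derivative, common to two differential embeddings.** -/
theorem exists_common_deriv (x : E)
    (halg : ∀ f : E, IsAlgebraic (IntermediateField.adjoin K {x}) f) (f : E) :
    ∃ u : E, D₁.IsDer x f u ∧ D₂.IsDer x f u := by
  haveI : CharZero E := charZero_of_injective_algebraMap (algebraMap K E).injective
  set T := derField D₁ D₂ x with hT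
  haveI : CharZero T := charZero_of_injective_algebraMap (algebraMap K T).injective
  have hfT : IsAlgebraic T f :=
    IsAlgebraic.tower_top_of_subalgebra_le
      (A := (IntermediateField.adjoin K {x}).toSubalgebra) (B := T.toSubalgebra)
      (adjoin_le_derField x) (halg f)
  have hint : IsIntegral T f := hfT.isIntegral
  have hsep : (minpoly T f).Separable := (minpoly.irreducible hint).separable
  have hd : aeval f (derivative (minpoly T f)) ≠ 0 :=
    hsep.aeval_derivative_ne_zero (minpoly.aeval T f)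
  obtain ⟨U, hU₁, hU₂⟩ := exists_chain (D₁ := D₁) (D₂ := D₂) x f (minpoly T f)
  rw [minpoly.aeval, map_zero, D₁.d_zero] at hU₁
  rw [minpoly.aeval, map_zero, D₂.d_zero] at hU₂
  refine ⟨- U / aeval f (derivative (minpoly T f)), ?_, ?_⟩
  · rw [IsDer, map_div₀, map_neg]
    have h1 : D₁.ι (aeval f (derivative (minpoly T f))) ≠ 0 := (map_ne_zero D₁.ι).mpr hd
    field_simp
    linear_combination -hU₁
  · rw [IsDer, map_div₀, map_neg]
    have h1 : D₂.ι (aeval f (derivative (minpoly T f))) ≠ 0 := (map_ne_zero D₂.ι).mpr hd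
    field_simp
    linear_combination -hU₂

/-- **Naturality of the algebraic derivative.** -/
theorem deriv_natural (x : E) (hx : D₁.d (D₁.ι x) ≠ 0)
    (halg : ∀ f : E, IsAlgebraic (IntermediateField.adjoin K {x}) f) {f u : E}
    (h : D₁.IsDer x f u) : D₂.IsDer x f u := by
  obtain ⟨u', h₁, h₂⟩ := exists_common_deriv (D₁ := D₁) (D₂ := D₂) x halg f
  rw [IsDer] at h h₁
  have h3 : D₁.ι u = D₁.ι u' := mul_right_cancel₀ hx (h.symm.trans h₁)
  have h4 : u = u' := D₁.ι.injective h3
  rw [h4]
  exact h₂

end pair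

section one

variable {K E M : Type*} [Field K] [Field E] [Algebra K E] [Field M] [CharZero K]
  {D : DiffEmb K E M}

/-- **The algebraic derivative**: `d (ι f) / d (ι x) ∈ ι E`. -/
theorem exists_deriv (x : E)
    (halg : ∀ f : E, IsAlgebraic (IntermediateField.adjoin K {x}) f) (f : E) :
    ∃ u : E, D.IsDer x f u := by
  obtain ⟨u, h, -⟩ := exists_common_deriv (D₁ := D) (D₂ := D) x halg f
  exact ⟨u, h⟩

end one

end DiffEmb

end Fermat.Agent.H31.SS
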