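import Fermat.Agent.H8.SS.KroneckerDelta

/-!
# P-SS / SSH-6 (helper31): the series `κ = (θ h)(t^q) / θ h` and its reduction modulo `q`

`h ∈ ℤ((t))` a Hauptmodul-like series (`h = t⁻¹ + …`), `θ = t d/dt`, `q` a prime.

* `kappaZ q h` : `κ = (θ h)(t^q) / θ h ∈ ℤ((t))`; `kappaZ_mul : κ θ h = (θ h)(t^q)`.
  In the function field `κ = (1/q) d h(t^q) / d h`.
* `kappaZ_mul_eq` : the exact identity `κ θ h = h^(q-1) θ h + θ δ` for the Frobenius defect
  `δ = (h(t^q) - h^q) / q`.
* `redQ_kappaZ_mul` : **the reduction of `κ` modulo `q`.**  Assume the Kronecker relation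
  `D(h)^n (h_q - h^q)(h - h_q^q) = q Ψ` in `ℤ((t))`, `Ψ ≡ P₀(h)` modulo `q`, and factorisations
  `P₀ = g P₁`, `D^n (X - X^(q²)) = g C₁` in `𝔽_q[X]` with `g ≠ 0`.  Then
  `κ C₁(h)² ≡ N₁(h)` modulo `q`, `N₁ = X^(q-1) C₁² + P₁' C₁ - P₁ C₁'`.
  (So `κ̄ = X^(q-1) + (P₁ / C₁)'` is regular at the roots of `g`.)
-/

set_option autoImplicit false
set_option linter.style.haveILetI false
set_option linter.unusedSectionVars false

noncomputable section

open HahnSeries ModularCurve Polynomial

namespace Fermat.Agent.H31.SS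

open Fermat.Agent.H8.SS

/-- A Hauptmodul-like series: `h = t⁻¹ + …`. -/
structure IsHauptSeries {R : Type*} [CommRing R] (h : LaurentSeries R) : Prop where
  coeff_lt : ∀ n : ℤ, n < -1 → h.coeff n = 0
  coeff_neg_one : h.coeff (-1) = 1

section basic

variable {R : Type*} [CommRing R] [IsDomain R] [CharZero R]

theorem IsHauptSeries.theta_coeff_neg_one {h : LaurentSeries R} (hh : IsHauptSeries h) :
    (theta h).coeff (-1) = -1 := by
  rw [theta_coeff, hh.coeff_neg_one]
  simp

theorem IsHauptSeries.theta_ne_zero {h : LaurentSeries R} (hh : IsHauptSeries h) :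
    theta h ≠ 0 := by
  intro h0
  have h1 := hh.theta_coeff_neg_one
  rw [h0, HahnSeries.coeff_zero] at h1
  exact one_ne_zero (neg_eq_zero.mp h1.symm)

theorem IsHauptSeries.theta_order {h : LaurentSeries R} (hh : IsHauptSeries h) :
    (theta h).order = -1 := by
  have h0 := hh.theta_ne_zero
  apply le_antisymm
  · apply HahnSeries.order_le_of_coeff_ne_zero
    rw [hh.theta_coeff_neg_one]
    exact neg_ne_zero.mpr one_ne_zero
  · by_contra hlt
    rw [not_le] at hlt
    have h1 := HahnSeries.leadingCoeff_ne_zero.mpr h0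
    rw [HahnSeries.leadingCoeff_eq, theta_coeff, hh.coeff_lt _ hlt, mul_zero] at h1
    exact h1 rfl

theorem IsHauptSeries.isUnit_theta {h : LaurentSeries R} (hh : IsHauptSeries h) :
    IsUnit (theta h) := by
  rw [HahnSeries.isUnit_iff, HahnSeries.leadingCoeff_eq, hh.theta_order,
    hh.theta_coeff_neg_one]
  exact isUnit_one.neg

end basic

section coeffMap

variable {R S : Type*} [CommRing R] [CommRing S]

theorem IsHauptSeries.map (f : R →+* S) {h : LaurentSeries R} (hh : IsHauptSeries h) :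
    IsHauptSeries (coeffMap f h) where
  coeff_lt := fun n hn => by rw [coeffMap_coeff, hh.coeff_lt n hn, map_zero]
  coeff_neg_one := by rw [coeffMap_coeff, hh.coeff_neg_one, map_one]

theorem coeffMap_aeval_int (f : ℤ →+* S) (h : LaurentSeries ℤ) (p : ℤ[X]) :
    coeffMap f (aeval h p) = aeval (coeffMap f h) (p.map f) := by
  rw [aeval_def, Polynomial.hom_eval₂, aeval_def, eval₂_map]
  congr 1
  exact RingHom.ext_int _ _

end coeffMap

section kappa

variable (q : ℕ) [hq : Fact q.Prime]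

/-- `κ = (θ h)(t^q) / θ h`. -/
def kappaZ (h : LaurentSeries ℤ) : LaurentSeries ℤ :=
  qExpand ℤ q (theta h) * Ring.inverse (theta h)

theorem kappaZ_mul {h : LaurentSeries ℤ} (hh : IsHauptSeries h) :
    kappaZ q h * theta h = qExpand ℤ q (theta h) := by
  rw [kappaZ, mul_assoc, Ring.inverse_mul_cancel _ hh.isUnit_theta, mul_one]

/-- `θ (h(t^q)) = q κ θ h`. -/
theorem theta_qExpand_eq {h : LaurentSeries ℤ} (hh : IsHauptSeries h) :
    theta (qExpand ℤ q h) = (q : LaurentSeries ℤ) * kappaZ q h * theta h := by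
  rw [theta_qExpand, mul_assoc, kappaZ_mul q hh, nsmul_eq_mul]

/-- the exact identity `κ θ h = h^(q-1) θ h + θ δ` -/
theorem kappaZ_mul_eq {h : LaurentSeries ℤ} (hh : IsHauptSeries h) (δ : LaurentSeries ℤ)
    (hδ : qExpand ℤ q h = h ^ q + (q : ℤ) • δ) :
    kappaZ q h * theta h = h ^ (q - 1) * theta h + theta δ := by
  rw [kappaZ_mul q hh, theta_delta q h δ hδ]
  ring

/-- `κ̄ θ h̄ = (θ h̄)^q` -/
theorem redQ_kappaZ_mul_theta {h : LaurentSeries ℤ} (hh : IsHauptSeries h) :
    redQ q (kappaZ q h) * theta (redQ q h) = theta (redQ q h) ^ q := by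
  have h1 := congrArg (redQ q) (kappaZ_mul q hh)
  rw [map_mul, redQ_qExpand, coeffMap_theta] at h1
  exact h1

theorem isUnit_theta_redQ {h : LaurentSeries ℤ} (hh : IsHauptSeries h) :
    IsUnit (theta (redQ q h)) := by
  rw [← coeffMap_theta]
  exact hh.isUnit_theta.map (redQ q)

/-- `κ̄ = (θ h̄)^(q-1)` is a unit -/
theorem isUnit_redQ_kappaZ {h : LaurentSeries ℤ} (hh : IsHauptSeries h) :
    IsUnit (redQ q (kappaZ q h)) := by
  have hu := isUnit_theta_redQ q hh
  have h1 := redQ_kappaZ_mul_theta q hh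
  have h2 : IsUnit (redQ q (kappaZ q h) * theta (redQ q h)) := by
    rw [h1]
    exact hu.pow q
  exact isUnit_of_mul_isUnit_left h2

theorem kappaZ_ne_zero {h : LaurentSeries ℤ} (hh : IsHauptSeries h) : kappaZ q h ≠ 0 := by
  intro h0
  have h1 := isUnit_redQ_kappaZ q hh
  rw [h0, map_zero] at h1
  haveI : Nontrivial (LaurentSeries (ZMod q)) := inferInstance
  exact not_isUnit_zero h1

/-- **The reduction of `κ` modulo `q`.** -/
theorem redQ_kappaZ_mul {h : LaurentSeries ℤ} (hh : IsHauptSeries h) (D : ℤ[X]) (n : ℕ)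
    (Ψ : LaurentSeries ℤ)
    (hK : aeval h D ^ n * ((qExpand ℤ q h - h ^ q) * (h - (qExpand ℤ q h) ^ q)) =
      (q : LaurentSeries ℤ) * Ψ)
    (P₀ g P₁ C₁ : (ZMod q)[X]) (hΨ : redQ q Ψ = aeval (redQ q h) P₀)
    (hP : P₀ = g * P₁)
    (hC : (D.map (Int.castRingHom (ZMod q))) ^ n * (X - X ^ (q ^ 2)) = g * C₁)
    (hg : aeval (redQ q h) g ≠ 0) :
    redQ q (kappaZ q h) * aeval (redQ q h) C₁ ^ 2 =
      aeval (redQ q h) (X ^ (q - 1) * C₁ ^ 2 + derivative P₁ * C₁ - P₁ * derivative C₁) := by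
  obtain ⟨δ, hδ⟩ := exists_delta q h
  have hq0 : (q : ℤ) ≠ 0 := by exact_mod_cast hq.out.ne_zero
  -- the relation divided by `q`
  have h1 : aeval h D ^ n * (δ * (h - (qExpand ℤ q h) ^ q)) = Ψ := by
    apply zsmul_injective_laurent hq0
    have e : qExpand ℤ q h - h ^ q = (q : ℤ) • δ := by rw [hδ]; ring
    rw [e] at hK
    rw [zsmul_eq_mul, zsmul_eq_mul]
    rw [zsmul_eq_mul] at hK
    push_cast at hK ⊢
    linear_combination hK
  -- modulo `q`
  set x : LaurentSeries (ZMod q) := redQ q h with hx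
  set d : LaurentSeries (ZMod q) := redQ q δ with hd
  have h2 : d * aeval x (g * C₁) = aeval x (g * P₁) := by
    have h := congrArg (redQ q) h1
    rw [map_mul, map_pow, map_mul, map_sub, map_pow, redQ_qExpand, coeffMap_aeval_int, hΨ, hP,
      ← pow_mul, ← sq] at h
    rw [← hC, map_mul, map_pow, map_sub, map_pow, aeval_X]
    rw [← h]
    ring
  have h3 : d * aeval x C₁ = aeval x P₁ := by
    rw [map_mul, map_mul] at h2
    have h4 : aeval x g * (d * aeval x C₁) = aeval x g * aeval x P₁ := by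
      linear_combination h2
    exact mul_left_cancel₀ hg h4
  -- apply `θ`
  have h5 : theta d * aeval x C₁ + d * (aeval x (derivative C₁) * theta x) =
      aeval x (derivative P₁) * theta x := by
    have h := congrArg theta h3
    rwa [theta_mul, theta_aeval, theta_aeval] at h
  have h6 : theta d = theta x ^ q - x ^ (q - 1) * theta x := theta_delta_mod q h δ hδ
  have h7 := redQ_kappaZ_mul_theta q hh
  rw [← hx] at h7
  have hu := isUnit_theta_redQ q hh
  rw [← hx] at hu
  apply hu.mul_left_cancel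
  simp only [map_add, map_sub, map_mul, map_pow, aeval_X]
  linear_combination (aeval x C₁) ^ 2 * h7 - (aeval x C₁) ^ 2 * h6 + (aeval x C₁) * h5
    - (aeval x (derivative C₁) * theta x) * h3

end kappa

end Fermat.Agent.H31.SS
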