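/-
P-SS, HAUPTMODUL DATA at level 9 (helper31), part 5: **branch data of the Hauptmodul `H` of
level 9 on `X₀(N)`, `9 ∣ N`, in characteristic `0`** (twin of helper8's `H8.SS.Haupt4Branch`,
needed for `q = 2`).

Generic part (`F / K` any function field of characteristic `0`, `t h : F` with
`h³ = t (h² + 9 h + 27)`): if `t` is unramified outside `0, -27, ∞` with `3 e ∣ N` at the zeros,
`e ∣ 3` over `-27` and `e ∣ N` at the poles, then `h` is unramified outside `0`, the roots of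
`X² + 9 X + 27` and `∞`, with `9 e ∣ N` at the zeros, `e ∣ N` over the roots of `X² + 9 X + 27`
and at the poles.

Modular part: `h9Bar_cube`, `h9Bar_transcendental`, `h9BranchOrd_h9Bar`,
`branchH9 : BranchH9Statement`.  **There are no elliptic points:** `H - a` has a simple zero
at every place over `a ≠ 0`, `a² + 9 a + 27 ≠ 0` (`ord_h9Bar_sub_eq_one`).
-/
import Fermat.Agent.H31.SS.Haupt9Field
import Fermat.Agent.H1.ESD.T3Branch
import Fermat.Agent.H17.ESD.BranchT2

set_option autoImplicit false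
set_option synthInstance.maxHeartbeats 400000
set_option maxHeartbeats 400000
set_option linter.unusedSectionVars false

noncomputable section

open AlgebraicCurve IntermediateField

namespace Fermat.Agent.H31.SS

open Fermat.Agent.H23 Fermat.Agent.H27.ESD Fermat.Agent.H17.ESD

section branch

open Polynomial

variable {K F : Type} [Field K] [Field F] [Algebra K F] [CharZero K]

/-- branch data of `t = t₃` in `ord` form -/
structure T3BranchOrd (K : Type) {F : Type} [Field K] [Field F] [Algebra K F] (t : F) (N : ℕ) :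
    Prop where
  gen : ∀ (v : Place K F) (c : K), c ≠ 0 → c ≠ -27 → 0 < v.ord (t - algebraMap K F c) →
    v.ord (t - algebraMap K F c) = 1
  e27 : ∀ v : Place K F, 0 < v.ord (t - algebraMap K F (-27)) →
    v.ord (t - algebraMap K F (-27)) ∣ 3
  zero : ∀ v : Place K F, 0 < v.ord t → 3 * v.ord t ∣ (N : ℤ)
  pole : ∀ v : Place K F, v.ord t < 0 → v.ord t⁻¹ ∣ (N : ℤ)

/-- branch data of the Hauptmodul `h` of level 9 in `ord` form: simple zeros of `h - a` for
`a ≠ 0`, `a² + 9 a + 27 ≠ 0`; the cusps `0`, the two roots of `X² + 9 X + 27`, `∞`. -/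
structure H9BranchOrd (K : Type) {F : Type} [Field K] [Field F] [Algebra K F] (h : F) (N : ℕ) :
    Prop where
  gen : ∀ (v : Place K F) (a : K), a ≠ 0 → a ^ 2 + 9 * a + 27 ≠ 0 →
    0 < v.ord (h - algebraMap K F a) → v.ord (h - algebraMap K F a) = 1
  zero : ∀ v : Place K F, 0 < v.ord h → 9 * v.ord h ∣ (N : ℤ)
  quad : ∀ (v : Place K F) (a : K), a ^ 2 + 9 * a + 27 = 0 →
    0 < v.ord (h - algebraMap K F a) → v.ord (h - algebraMap K F a) ∣ (N : ℤ)
  pole : ∀ v : Place K F, v.ord h < 0 → v.ord h⁻¹ ∣ (N : ℤ)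

/-- the polynomial `X² + 9 X + 27` -/
def h9Quad (K : Type) [Field K] : K[X] := X ^ 2 + C 9 * X + C 27

omit [CharZero K] in
theorem h9Quad_eval (a : K) : (h9Quad K).eval a = a ^ 2 + 9 * a + 27 := by
  simp only [h9Quad, eval_add, eval_mul, eval_C, eval_X, eval_pow]

omit [CharZero K] in
theorem h9Quad_aeval (h : F) : aeval h (h9Quad K) = h ^ 2 + 9 * h + 27 := by
  simp only [h9Quad, map_add, map_mul, map_pow, aeval_X, aeval_C, map_ofNat]

omit [CharZero K] in
/-- at a zero of `h - a` with `a² + 9 a + 27 ≠ 0`, `h² + 9 h + 27` is a unit -/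
theorem h9_ord_quad_eq_zero (v : Place K F) {h : F} {a : K}
    (hv : 0 < v.ord (h - algebraMap K F a)) (ha : a ^ 2 + 9 * a + 27 ≠ 0) :
    h ^ 2 + 9 * h + 27 ≠ 0 ∧ v.ord (h ^ 2 + 9 * h + 27) = 0 := by
  have := Fermat.Agent.H2.klbr_ord_aeval_eq_zero v hv (h9Quad K) (by rwa [h9Quad_eval])
  rwa [h9Quad_aeval] at this

omit [CharZero K] in
theorem h9_sub_zero (h : F) : h - algebraMap K F 0 = h := by
  rw [map_zero, sub_zero]

/-- generic point: `a ≠ 0`, `a² + 9 a + 27 ≠ 0`, `a ≠ -9` -/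
theorem h9_branch_generic {t h : F} {N : ℕ} (hT : T3BranchOrd K t N)
    (hrel : h ^ 3 = t * (h ^ 2 + 9 * h + 27)) (v : Place K F) (a : K) (ha0 : a ≠ 0)
    (ha1 : a ^ 2 + 9 * a + 27 ≠ 0) (ha2 : a ≠ -9)
    (hv : 0 < v.ord (h - algebraMap K F a)) :
    v.ord (h - algebraMap K F a) = 1 := by
  have ha2' : a + 9 ≠ 0 := fun h0 => ha2 (by linear_combination h0)
  set c : K := a ^ 3 / (a ^ 2 + 9 * a + 27) with hc
  have hc0 : c ≠ 0 := div_ne_zero (pow_ne_zero 3 ha0) ha1
  have hc1 : c ≠ -27 := by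
    intro h1
    rw [hc, div_eq_iff ha1] at h1
    have h2 : (a + 9) ^ 3 = 0 := by linear_combination h1
    exact pow_ne_zero 3 ha2' h2
  let g : K[X] := C (a ^ 2 + 9 * a + 27) * X ^ 2 + C (9 * a ^ 2 + 27 * a) * X + C (27 * a ^ 2)
  have hg : g.eval a ≠ 0 := by
    have e : g.eval a = a ^ 2 * (a + 9) ^ 2 := by
      simp only [g, eval_add, eval_mul, eval_C, eval_X, eval_pow]
      ring
    rw [e]
    exact mul_ne_zero (pow_ne_zero 2 ha0) (pow_ne_zero 2 ha2')
  obtain ⟨hgne, hg0⟩ := Fermat.Agent.H2.klbr_ord_aeval_eq_zero v hv g hg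
  obtain ⟨hsne, hs0⟩ := h9_ord_quad_eq_zero v hv ha1
  have key : (t - algebraMap K F c) * (h ^ 2 + 9 * h + 27) *
      algebraMap K F (a ^ 2 + 9 * a + 27) = (h - algebraMap K F a) * aeval h g := by
    have e1 : algebraMap K F c * algebraMap K F (a ^ 2 + 9 * a + 27) =
        algebraMap K F a ^ 3 := by
      rw [← map_mul, hc, div_mul_cancel₀ _ ha1, map_pow]
    have e2 : aeval h g = (algebraMap K F a ^ 2 + 9 * algebraMap K F a + 27) * h ^ 2 +
        (9 * algebraMap K F a ^ 2 + 27 * algebraMap K F a) * h +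
          27 * algebraMap K F a ^ 2 := by
      simp only [g, map_add, map_mul, map_pow, aeval_C, aeval_X, map_ofNat]
    have e3 : (t - algebraMap K F c) * (h ^ 2 + 9 * h + 27) *
        algebraMap K F (a ^ 2 + 9 * a + 27) =
        t * (h ^ 2 + 9 * h + 27) * algebraMap K F (a ^ 2 + 9 * a + 27) -
          (algebraMap K F c * algebraMap K F (a ^ 2 + 9 * a + 27)) * (h ^ 2 + 9 * h + 27) := by
      ring
    rw [e2, e3, e1, ← hrel]
    simp only [map_add, map_mul, map_pow, map_ofNat]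
    ring
  have hha : h - algebraMap K F a ≠ 0 := pc_ne_zero_of_ord_ne v hv.ne'
  have htc : t - algebraMap K F c ≠ 0 := by
    intro h0
    rw [h0, zero_mul, zero_mul] at key
    exact mul_ne_zero hha hgne key.symm
  have hcc : algebraMap K F (a ^ 2 + 9 * a + 27) ≠ 0 := by
    rw [Ne, map_eq_zero]
    exact ha1
  have h3 := congrArg v.ord key
  rw [v.ord_mul (mul_ne_zero htc hsne) hcc, v.ord_mul htc hsne, hs0, ord_algebraMap,
    v.ord_mul hha hgne, hg0] at h3
  have h4 : 0 < v.ord (t - algebraMap K F c) := by linarith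
  have h5 := hT.gen v c hc0 hc1 h4
  linarith

omit [CharZero K] in
theorem h9_rel_27 {t h : F} (hrel : h ^ 3 = t * (h ^ 2 + 9 * h + 27)) :
    (t - algebraMap K F (-27)) * (h ^ 2 + 9 * h + 27) = (h - algebraMap K F (-9)) ^ 3 := by
  have e : (t - algebraMap K F (-27)) * (h ^ 2 + 9 * h + 27) =
      t * (h ^ 2 + 9 * h + 27) - algebraMap K F (-27) * (h ^ 2 + 9 * h + 27) := by
    ring
  rw [e, ← hrel, map_neg, map_neg, map_ofNat, map_ofNat]
  ring

/-- the point `h = -9` (over `t₃ = -27`, where `t₃` has index dividing `3`) -/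
theorem h9_branch_9 {t h : F} {N : ℕ} (hT : T3BranchOrd K t N)
    (hrel : h ^ 3 = t * (h ^ 2 + 9 * h + 27)) (v : Place K F)
    (hv : 0 < v.ord (h - algebraMap K F (-9))) :
    v.ord (h - algebraMap K F (-9)) = 1 := by
  obtain ⟨hsne, hs0⟩ := h9_ord_quad_eq_zero v hv (by norm_num : ((-9 : K)) ^ 2 + 9 * (-9) + 27 ≠ 0)
  have hrel' := h9_rel_27 (K := K) hrel
  have hha : h - algebraMap K F (-9) ≠ 0 := pc_ne_zero_of_ord_ne v hv.ne'
  have htc : t - algebraMap K F (-27) ≠ 0 := by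
    intro h0
    rw [h0, zero_mul] at hrel'
    exact pow_ne_zero 3 hha hrel'.symm
  have h3 := congrArg v.ord hrel'
  rw [v.ord_mul htc hsne, hs0, pc_ord_pow, add_zero] at h3
  simp only [Nat.cast_ofNat] at h3
  have h4 : 0 < v.ord (t - algebraMap K F (-27)) := by
    rw [h3]
    linarith
  have h5 := hT.e27 v h4
  rw [h3] at h5
  have h7 : v.ord (h - algebraMap K F (-9)) ∣ 1 := by
    obtain ⟨m, hm⟩ := h5
    exact ⟨m, by linarith⟩
  exact Int.eq_one_of_dvd_one hv.le h7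

/-- **no elliptic points**: simple zeros of `h - a` for `a ≠ 0`, `a² + 9 a + 27 ≠ 0`. -/
theorem h9_branch_gen {t h : F} {N : ℕ} (hT : T3BranchOrd K t N)
    (hrel : h ^ 3 = t * (h ^ 2 + 9 * h + 27)) (v : Place K F) (a : K) (ha0 : a ≠ 0)
    (ha1 : a ^ 2 + 9 * a + 27 ≠ 0) (hv : 0 < v.ord (h - algebraMap K F a)) :
    v.ord (h - algebraMap K F a) = 1 := by
  by_cases ha2 : a = -9
  · subst ha2
    exact h9_branch_9 hT hrel v hv
  · exact h9_branch_generic hT hrel v a ha0 ha1 ha2 hv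

/-- the zeros of `h` (the cusp `0`, of width `9 e`) -/
theorem h9_branch_zero {t h : F} {N : ℕ} (hT : T3BranchOrd K t N)
    (hrel : h ^ 3 = t * (h ^ 2 + 9 * h + 27)) (v : Place K F) (hv : 0 < v.ord h) :
    9 * v.ord h ∣ (N : ℤ) := by
  have hh : h ≠ 0 := pc_ne_zero_of_ord_ne v hv.ne'
  have hv' : 0 < v.ord (h - algebraMap K F 0) := by rwa [h9_sub_zero]
  obtain ⟨hsne, hs0⟩ := h9_ord_quad_eq_zero v hv'
    (by norm_num : ((0 : K)) ^ 2 + 9 * 0 + 27 ≠ 0)
  have ht : t ≠ 0 := by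
    rintro rfl
    rw [zero_mul] at hrel
    exact pow_ne_zero 3 hh hrel
  have h3 := congrArg v.ord hrel
  rw [pc_ord_pow, v.ord_mul ht hsne, hs0, add_zero] at h3
  simp only [Nat.cast_ofNat] at h3
  have h4 : 0 < v.ord t := by
    rw [← h3]
    linarith
  have h5 := hT.zero v h4
  rw [← h3] at h5
  have e : (9 : ℤ) * v.ord h = 3 * (3 * v.ord h) := by ring
  rw [e]
  exact h5

/-- the points over the roots of `X² + 9 X + 27` (the cusps `± 1/3`) -/
theorem h9_branch_quad {t h : F} {N : ℕ} (hT : T3BranchOrd K t N)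
    (hrel : h ^ 3 = t * (h ^ 2 + 9 * h + 27)) (v : Place K F) (a : K)
    (ha : a ^ 2 + 9 * a + 27 = 0) (hv : 0 < v.ord (h - algebraMap K F a)) :
    v.ord (h - algebraMap K F a) ∣ (N : ℤ) := by
  have ha0 : a ≠ 0 := by
    rintro rfl
    norm_num at ha
  have haa : a ≠ -9 - a := by
    intro h0
    have h1 : (27 : K) = 0 := by
      have h2 : 2 * a + 9 = 0 := by linear_combination h0
      linear_combination 4 * ha - (2 * a + 9) * h2
    norm_num at h1
  obtain ⟨hhne, hh0⟩ := pc_ord_sub_const_eq_zero v h (c := a) (d := 0) ha0 hv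
  rw [h9_sub_zero] at hhne hh0
  obtain ⟨hsne, hs0⟩ := pc_ord_sub_const_eq_zero v h (c := a) (d := -9 - a) haa hv
  have hha : h - algebraMap K F a ≠ 0 := pc_ne_zero_of_ord_ne v hv.ne'
  have hfac : h ^ 2 + 9 * h + 27 = (h - algebraMap K F a) * (h - algebraMap K F (-9 - a)) := by
    have e : algebraMap K F (a ^ 2 + 9 * a + 27) = 0 := by rw [ha, map_zero]
    simp only [map_add, map_mul, map_pow, map_ofNat] at e
    simp only [map_sub, map_neg, map_ofNat]
    linear_combination e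
  rw [hfac] at hrel
  have ht : t ≠ 0 := by
    rintro rfl
    rw [zero_mul] at hrel
    exact pow_ne_zero 3 hhne hrel
  have h3 := congrArg v.ord hrel
  rw [pc_ord_pow, hh0, v.ord_mul ht (mul_ne_zero hha hsne), v.ord_mul hha hsne, hs0,
    mul_zero, add_zero] at h3
  have h4 : v.ord t < 0 := by linarith
  have h5 := hT.pole v h4
  rw [v.ord_inv] at h5
  have e : v.ord (h - algebraMap K F a) = - v.ord t := by linarith
  rw [e]
  exact h5

/-- at a pole of `h`, `ord (h² + 9 h + 27) = 2 ord h` -/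
theorem h9_ord_quad_of_pole (v : Place K F) {h : F} (hv : v.ord h < 0) :
    h ^ 2 + 9 * h + 27 ≠ 0 ∧ v.ord (h ^ 2 + 9 * h + 27) = 2 * v.ord h := by
  have hh : h ≠ 0 := pc_ne_zero_of_ord_ne v hv.ne
  obtain ⟨h3ne, h3⟩ := pc_ord_sub_const_of_pole v h (-3 : K) hv
  have e9 : (9 : F) = algebraMap K F 9 := (map_ofNat _ _).symm
  have h9ne : algebraMap K F 9 ≠ 0 := by
    rw [Ne, map_eq_zero]
    norm_num
  have hlin : 9 * h + 27 = algebraMap K F 9 * (h - algebraMap K F (-3)) := by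
    rw [map_neg, map_ofNat, map_ofNat]
    ring
  have hlin_ne : 9 * h + 27 ≠ 0 := by
    rw [hlin]
    exact mul_ne_zero h9ne h3ne
  have hlin_ord : v.ord (9 * h + 27) = v.ord h := by
    rw [hlin, v.ord_mul h9ne h3ne, ord_algebraMap, h3, zero_add]
  have hsq : v.ord (h ^ 2) = 2 * v.ord h := by
    rw [pc_ord_pow]
    simp only [Nat.cast_ofNat]
  have hlt : v.ord (h ^ 2) < v.ord (9 * h + 27) := by
    rw [hsq, hlin_ord]
    linarith
  have hadd := ord_add_eq_of_lt v (pow_ne_zero 2 hh) hlin_ne hlt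
  have e : h ^ 2 + 9 * h + 27 = h ^ 2 + (9 * h + 27) := by ring
  rw [e]
  refine ⟨?_, by rw [hadd, hsq]⟩
  intro h0
  rw [h0, v.ord_zero] at hadd
  rw [← hadd] at hsq
  linarith

/-- the poles of `h` (the cusp `∞`) -/
theorem h9_branch_pole {t h : F} {N : ℕ} (hT : T3BranchOrd K t N)
    (hrel : h ^ 3 = t * (h ^ 2 + 9 * h + 27)) (v : Place K F) (hv : v.ord h < 0) :
    v.ord h⁻¹ ∣ (N : ℤ) := by
  have hh : h ≠ 0 := pc_ne_zero_of_ord_ne v hv.ne
  obtain ⟨hsne, hs0⟩ := h9_ord_quad_of_pole (K := K) v hv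
  have ht : t ≠ 0 := by
    rintro rfl
    rw [zero_mul] at hrel
    exact pow_ne_zero 3 hh hrel
  have h3 := congrArg v.ord hrel
  rw [pc_ord_pow, v.ord_mul ht hsne, hs0] at h3
  simp only [Nat.cast_ofNat] at h3
  have h4 : v.ord t < 0 := by linarith
  have h5 := hT.pole v h4
  rw [v.ord_inv] at h5 ⊢
  have e : v.ord h = v.ord t := by linarith
  rw [e]
  exact h5

/-- **branch data of the Hauptmodul of level 9** from the branch data of `t₃`. -/
theorem h9BranchOrd_of_t3 {t h : F} {N : ℕ} (hT : T3BranchOrd K t N)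
    (hrel : h ^ 3 = t * (h ^ 2 + 9 * h + 27)) : H9BranchOrd K h N where
  gen := fun v a ha0 ha1 hv => h9_branch_gen hT hrel v a ha0 ha1 hv
  zero := fun v hv => h9_branch_zero hT hrel v hv
  quad := fun v a ha hv => h9_branch_quad hT hrel v a ha hv
  pole := fun v hv => h9_branch_pole hT hrel v hv

end branch

/-! ### the modular function field -/

section modular

open ModularCurve

variable (N : ℕ) [NeZero N]

local notation "Kbar" => AlgebraicClosure ℚ
set_option quotPrecheck false in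
local notation "FN" => ↥(ModularCurve.modularFunctionFieldBar N)

/-- the branch data of `t₃` on `X₀(N)`, `3 ∣ N` (helper1), `ord` form -/
theorem t3BranchOrd_t3Bar (hN : 3 ∣ N) :
    T3BranchOrd Kbar (Fermat.Agent.H1.ESD.t3Bar N hN) N where
  gen := fun v c h0 h1 hv =>
    Fermat.Agent.H1.ESD.t3_branch_local v (Fermat.Agent.H1.ESD.t3Bar_rel N hN)
      (Fermat.Agent.H1.ESD.t3Bar_transcendental N hN) (jBar_transcendental N)
      (fun a ha0 ha1 hv' => ord_jBar_sub_eq_one N v ha0 ha1 hv')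
      (ord_jBar_dvd_three N v) (ord_jBar_sub_dvd_two N v) h0 h1 hv
  e27 := fun v hv => by
    have e27 : Fermat.Agent.H1.ESD.t3Bar N hN + 27 =
        Fermat.Agent.H1.ESD.t3Bar N hN - algebraMap Kbar FN (-27) := by
      rw [map_neg, sub_neg_eq_add, map_ofNat]
    rw [← e27] at hv ⊢
    have h1 := Fermat.Agent.H1.ESD.t3_branch_27 (K := Kbar) v
      (Fermat.Agent.H1.ESD.t3Bar_rel N hN) (Fermat.Agent.H1.ESD.t3Bar_transcendental N hN) hv
    have h2 := ord_jBar_dvd_three N v (by omega)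
    rwa [h1] at h2
  zero := fun v hv => by
    have h1 := Fermat.Agent.H1.ESD.t3_branch_zero (K := Kbar) v
      (Fermat.Agent.H1.ESD.t3Bar_rel N hN) (Fermat.Agent.H1.ESD.t3Bar_transcendental N hN) hv
    have h2 : 0 < v.ord (jBar N)⁻¹ := by rw [v.ord_inv]; omega
    have h3' := ord_jBar_inv_dvd N v h2
    rwa [v.ord_inv, h1, neg_neg] at h3'
  pole := fun v hv => by
    have h1 := Fermat.Agent.H1.ESD.t3_branch_pole (K := Kbar) v
      (Fermat.Agent.H1.ESD.t3Bar_rel N hN) (Fermat.Agent.H1.ESD.t3Bar_transcendental N hN) hv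
    have h2 : 0 < v.ord (jBar N)⁻¹ := by rw [v.ord_inv]; omega
    have h3' := ord_jBar_inv_dvd N v h2
    rw [v.ord_inv, h1] at h3'
    rw [v.ord_inv]
    exact h3'

theorem three_dvd_of_nine_dvd {N : ℕ} (hN : 9 ∣ N) : 3 ∣ N := dvd_trans (by norm_num) hN

/-- `H³ = t₃ (H² + 9 H + 27)` in `F_L` -/
theorem h9Bar_cube (hN : 9 ∣ N) :
    h9Bar N hN ^ 3 = Fermat.Agent.H1.ESD.t3Bar N (three_dvd_of_nine_dvd hN) *
      (h9Bar N hN ^ 2 + 9 * h9Bar N hN + 27) := by
  apply (algebraMap FN (LaurentSeries Kbar)).injective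
  simp only [map_mul, map_pow, map_add, map_ofNat]
  change ((h9Bar N hN : FN) : LaurentSeries Kbar) ^ 3 =
    ((Fermat.Agent.H1.ESD.t3Bar N (three_dvd_of_nine_dvd hN) : FN) : LaurentSeries Kbar) *
      (((h9Bar N hN : FN) : LaurentSeries Kbar) ^ 2 +
        9 * ((h9Bar N hN : FN) : LaurentSeries Kbar) + 27)
  rw [h9Bar_coe]
  exact h9_cube Kbar

/-- `j H⁹ (H² + 9 H + 27) = (H + 9)³ (H³ + 243 H² + 2187 H + 6561)³` in `F_L` -/
theorem h9Bar_j (hN : 9 ∣ N) :
    jBar N * h9Bar N hN ^ 9 * (h9Bar N hN ^ 2 + 9 * h9Bar N hN + 27) =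
      (h9Bar N hN + 9) ^ 3 *
        (h9Bar N hN ^ 3 + 243 * h9Bar N hN ^ 2 + 2187 * h9Bar N hN + 6561) ^ 3 := by
  apply (algebraMap FN (LaurentSeries Kbar)).injective
  simp only [map_mul, map_pow, map_add, map_ofNat]
  change ((jBar N : FN) : LaurentSeries Kbar) * ((h9Bar N hN : FN) : LaurentSeries Kbar) ^ 9 *
      (((h9Bar N hN : FN) : LaurentSeries Kbar) ^ 2 +
        9 * ((h9Bar N hN : FN) : LaurentSeries Kbar) + 27) =
    (((h9Bar N hN : FN) : LaurentSeries Kbar) + 9) ^ 3 *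
      (((h9Bar N hN : FN) : LaurentSeries Kbar) ^ 3 +
        243 * ((h9Bar N hN : FN) : LaurentSeries Kbar) ^ 2 +
        2187 * ((h9Bar N hN : FN) : LaurentSeries Kbar) + 6561) ^ 3
  rw [h9Bar_coe, jBar_coe]
  exact h9_j Kbar

theorem h9Bar_ne_zero (hN : 9 ∣ N) : h9Bar N hN ≠ 0 := by
  intro h
  have h1 := congrArg (fun x : FN => (x : LaurentSeries Kbar)) h
  simp only [h9Bar_coe] at h1
  exact h9S_ne_zero Kbar h1

theorem h9Bar_quad_ne_zero (hN : 9 ∣ N) : h9Bar N hN ^ 2 + 9 * h9Bar N hN + 27 ≠ 0 := by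
  intro h
  have h1 := congrArg (algebraMap FN (LaurentSeries Kbar)) h
  simp only [map_add, map_mul, map_pow, map_ofNat, map_zero] at h1
  exact h9S_quad_ne_zero Kbar h1

theorem jBar_mem_adjoin_h9Bar (hN : 9 ∣ N) : jBar N ∈ Kbar⟮h9Bar N hN⟯ := by
  have hne : h9Bar N hN ^ 9 * (h9Bar N hN ^ 2 + 9 * h9Bar N hN + 27) ≠ 0 :=
    mul_ne_zero (pow_ne_zero 9 (h9Bar_ne_zero N hN)) (h9Bar_quad_ne_zero N hN)
  have h : jBar N = (h9Bar N hN + 9) ^ 3 *
      (h9Bar N hN ^ 3 + 243 * h9Bar N hN ^ 2 + 2187 * h9Bar N hN + 6561) ^ 3 /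
      (h9Bar N hN ^ 9 * (h9Bar N hN ^ 2 + 9 * h9Bar N hN + 27)) := by
    apply eq_div_of_mul_eq hne
    rw [← h9Bar_j]
    ring
  rw [h]
  have hH : h9Bar N hN ∈ Kbar⟮h9Bar N hN⟯ := mem_adjoin_simple_self Kbar _
  have hn : ∀ (n : ℕ) [n.AtLeastTwo], (OfNat.ofNat n : FN) ∈ Kbar⟮h9Bar N hN⟯ := by
    intro n _
    have : (OfNat.ofNat n : FN) = algebraMap Kbar FN (OfNat.ofNat n) := (map_ofNat _ _).symm
    rw [this]
    exact (Kbar⟮h9Bar N hN⟯).algebraMap_mem _
  refine div_mem (mul_mem (pow_mem (add_mem hH (hn 9)) 3) (pow_mem ?_ 3))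
    (mul_mem (pow_mem hH 9) (add_mem (add_mem (pow_mem hH 2) (mul_mem (hn 9) hH)) (hn 27)))
  exact add_mem (add_mem (add_mem (pow_mem hH 3) (mul_mem (hn 243) (pow_mem hH 2)))
    (mul_mem (hn 2187) hH)) (hn 6561)

theorem h9Bar_transcendental (hN : 9 ∣ N) : Transcendental Kbar (h9Bar N hN) :=
  pc_transcendental_of_mem (jBar_mem_adjoin_h9Bar N hN) (jBar_transcendental N)

theorem h9Bar_finiteDimensional (hN : 9 ∣ N) : FiniteDimensional Kbar⟮h9Bar N hN⟯ FN := by
  have : FiniteDimensional Kbar⟮jBar N⟯ FN := (degreeStatement_holds N).2.1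
  exact pc_finiteDimensional_of_mem (jBar_mem_adjoin_h9Bar N hN)

/-- **branch data of `H` on `X₀(N)`, `9 ∣ N`**, `ord` form -/
theorem h9BranchOrd_h9Bar (hN : 9 ∣ N) : H9BranchOrd Kbar (h9Bar N hN) N :=
  h9BranchOrd_of_t3 (t3BranchOrd_t3Bar N (three_dvd_of_nine_dvd hN)) (h9Bar_cube N hN)

/-- **no elliptic points at level `9 ∣ N`**: `H - a` has a simple zero at every place over
`a ≠ 0`, `a² + 9 a + 27 ≠ 0`. -/
theorem ord_h9Bar_sub_eq_one (hN : 9 ∣ N) (v : Place Kbar FN) {a : Kbar} (h0 : a ≠ 0)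
    (h1 : a ^ 2 + 9 * a + 27 ≠ 0) (hv : 0 < v.ord (h9Bar N hN - algebraMap Kbar FN a)) :
    v.ord (h9Bar N hN - algebraMap Kbar FN a) = 1 :=
  (h9BranchOrd_h9Bar N hN).gen v a h0 h1 hv

/-- **Branch data of `H` on `X₀(N)`, `9 ∣ N`, in characteristic 0**, `ramIdx` form (same shape
as `Fermat.Agent.H8.SS.BranchH4Statement`; the cusps are `H = ∞`, `H = 0` and the two roots of
`H² + 9 H + 27`). -/
def BranchH9Statement : Prop :=
  ∀ (N : ℕ) [NeZero N] (hN : 9 ∣ N)
    (v : Place (AlgebraicClosure ℚ) ↥(ModularCurve.modularFunctionFieldBar N)),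
    (1 ≤ ramIdx (h9Bar N hN) v) ∧
    (1 < ramIdx (h9Bar N hN) v →
      v.ord (h9Bar N hN) < 0 ∨ 0 < v.ord (h9Bar N hN) ∨
        0 < v.ord (h9Bar N hN ^ 2 + 9 * h9Bar N hN + 27)) ∧
    (v.ord (h9Bar N hN) < 0 → ramIdx (h9Bar N hN) v ∣ N) ∧
    (0 < v.ord (h9Bar N hN) → 9 * ramIdx (h9Bar N hN) v ∣ N) ∧
    (0 < v.ord (h9Bar N hN ^ 2 + 9 * h9Bar N hN + 27) → ramIdx (h9Bar N hN) v ∣ N)

end modular

theorem branchH9 : BranchH9Statement := by
  intro N _ hN v
  have hB := h9BranchOrd_h9Bar N hN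
  have hneg : v.ord (h9Bar N hN) < 0 → ramIdx (h9Bar N hN) v ∣ N := by
    intro h
    rw [ramIdx_of_ord_neg v _ h]
    have h2 := hB.pole v h
    rw [v.ord_inv] at h2
    exact toNat_dvd_of_dvd (by omega) h2
  have hzero : 0 < v.ord (h9Bar N hN) → 9 * ramIdx (h9Bar N hN) v ∣ N := by
    intro h
    have h' : 0 < v.ord (h9Bar N hN - algebraMap (AlgebraicClosure ℚ) _ 0) := by
      rwa [map_zero, sub_zero]
    rw [ramIdx_of_ord_sub_pos v _ h']
    simp only [map_zero, sub_zero]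
    have h2 := hB.zero v h
    have h3 : ((9 * (v.ord (h9Bar N hN)).toNat : ℕ) : ℤ) = 9 * v.ord (h9Bar N hN) := by
      push_cast
      rw [Int.toNat_of_nonneg h.le]
    rw [← h3] at h2
    exact Int.natCast_dvd_natCast.mp h2
  have hpt := exists_point (place_deg_eq_one N) (h9Bar_transcendental N hN) v
  -- a zero of the quadratic is a zero of `H - a` for a root `a`, of the same order
  have hquad_of : ∀ a : AlgebraicClosure ℚ, a ^ 2 + 9 * a + 27 = 0 →
      0 < v.ord (h9Bar N hN - algebraMap (AlgebraicClosure ℚ) _ a) →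
      0 < v.ord (h9Bar N hN ^ 2 + 9 * h9Bar N hN + 27) := by
    intro a ha hv
    have haa : a ≠ -9 - a := by
      intro h0
      have h1 : (27 : AlgebraicClosure ℚ) = 0 := by
        have h2 : 2 * a + 9 = 0 := by linear_combination h0
        linear_combination 4 * ha - (2 * a + 9) * h2
      norm_num at h1
    obtain ⟨hsne, hs0⟩ := pc_ord_sub_const_eq_zero v (h9Bar N hN) (c := a) (d := -9 - a) haa hv
    have hha : h9Bar N hN - algebraMap (AlgebraicClosure ℚ) _ a ≠ 0 :=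
      pc_ne_zero_of_ord_ne v hv.ne'
    have hfac : h9Bar N hN ^ 2 + 9 * h9Bar N hN + 27 =
        (h9Bar N hN - algebraMap (AlgebraicClosure ℚ) _ a) *
          (h9Bar N hN - algebraMap (AlgebraicClosure ℚ) _ (-9 - a)) := by
      have e : algebraMap (AlgebraicClosure ℚ) ↥(ModularCurve.modularFunctionFieldBar N)
          (a ^ 2 + 9 * a + 27) = 0 := by rw [ha, map_zero]
      simp only [map_add, map_mul, map_pow, map_ofNat] at e
      simp only [map_sub, map_neg, map_ofNat]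
      linear_combination e
    rw [hfac, v.ord_mul hha hsne, hs0, add_zero]
    exact hv
  have hq : 0 < v.ord (h9Bar N hN ^ 2 + 9 * h9Bar N hN + 27) →
      ramIdx (h9Bar N hN) v ∣ N := by
    intro h
    rcases hpt with hp | ⟨a, ha⟩
    · exfalso
      have hp' : v.ord (h9Bar N hN) < 0 := by rw [v.ord_inv] at hp; omega
      obtain ⟨-, h2⟩ := h9_ord_quad_of_pole (K := AlgebraicClosure ℚ) v hp'
      omega
    · by_cases hroot : a ^ 2 + 9 * a + 27 = 0
      · rw [ramIdx_of_ord_sub_pos v _ ha]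
        exact toNat_dvd_of_dvd ha (hB.quad v a hroot ha)
      · exfalso
        obtain ⟨-, h2⟩ := h9_ord_quad_eq_zero v ha hroot
        omega
  refine ⟨?_, ?_, hneg, hzero, hq⟩
  · rcases hpt with h | ⟨a, ha⟩
    · have h' : v.ord (h9Bar N hN) < 0 := by rw [v.ord_inv] at h; omega
      rw [ramIdx_of_ord_neg v _ h']
      omega
    · rw [ramIdx_of_ord_sub_pos v _ ha]
      omega
  · intro hram
    rcases hpt with h | ⟨a, ha⟩
    · left
      rw [v.ord_inv] at h; omega
    · by_cases h0 : a = 0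
      · right; left
        subst h0
        simpa using ha
      · by_cases h1 : a ^ 2 + 9 * a + 27 = 0
        · right; right
          exact hquad_of a h1 ha
        · exfalso
          rw [ramIdx_of_ord_sub_pos v _ ha, hB.gen v a h0 h1 ha] at hram
          simp at hram

end Fermat.Agent.H31.SS
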