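/-
P-SS, LEVEL-9 TWINS (helper31): **interfaces of the crossing-point block for `q = 2`**
(auxiliary level `9 ∣ M`, Hauptmodul `H = h9S` of `X₀(9)`; cusps `H = 0`, `H² + 9 H + 27 = 0`,
`H = ∞`).  Twins of `Fermat.Agent.H8.SS.CrossInterfaces` (level `4`, `q` odd) and of the three
model inputs of `Fermat.Agent.H59.SS.CrossModel`.

* `ModelUnramifiedH9Statement N` : the chart `H` is unramified off the cusps
  (`UnramifiedNear` at every disc `(ϖ, g)` containing neither `X` nor `X² + 9 X + 27`;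
  the two conjugate cusps are in general NOT rational over `K₁`).
* `ModelDerivRegularH9Statement N` : `d/dH` preserves the valuation rings of the finite places
  of the chart `j`.
* `ModelHauptBasicsH9Statement M q` : `H`, `H_q = H(t^q)` in the model field of level `M q`,
  both in `B(j)`, `H (H² + 9 H + 27)` and `H_q (H_q² + 9 H_q + 27)` units of `B(j)`, `W_q`
  exchanges `H` and `H_q` and preserves `B(j)`.
* `SSCrossData9Statement`, `SSLocAModel9Statement`, `SSGen9Statement` : the three model inputs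
  of the crossing-point row, and `ssPlaceGenCross9_of` : they give
  `Fermat.Agent.H45.SSPlaceGenCrossStatement M q jq R` (`9 ∣ M`).
The good basis in the chart `H` is `H22.KL.ModelGoodBasisStatement N ℓ (h9S ℚ)`, `ℓ ≠ 3`.
-/
import Fermat.Agent.H31.SS.Haupt9Branch
import Fermat.Agent.H31.SS.Haupt9Kronecker
import Fermat.Agent.H8.SS.Theta
import Fermat.Agent.H45.SS.Model
import Fermat.Agent.H59.SS.CrossModel

set_option autoImplicit false
set_option linter.unusedSectionVars false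
set_option linter.style.haveILetI false

noncomputable section

namespace Fermat.Agent.H31.SS

open Polynomial IsLocalRing ModularCurve AlgebraicCurve
open scoped Polynomial.Bivariate
open Fermat.Agent.H22.KL Fermat.Agent.H45 Fermat.Agent.H60.SS Fermat.Agent.H88.KLB
open Fermat.Agent.H82.SS Fermat.Agent.H8.SS Fermat.Agent.H59.SS

/-- **HM-UNR, level 9**: in the chart `H` (Hauptmodul of level 9) of the model field of level
`N`, `9 ∣ N`, every characteristic-zero place in a residue disc `(ϖ, g(H))` which contains no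
cusp value (`X ∉ (ϖ, g)` and `X² + 9 X + 27 ∉ (ϖ, g)`) is unramified over `K₁(H)`. -/
def ModelUnramifiedH9Statement (N : ℕ) : Prop :=
  ∀ (K₁ : Type) [Field K₁] [Algebra ℚ K₁] [FiniteDimensional ℚ K₁]
    (A₀ : Type) [CommRing A₀] [IsDomain A₀] [IsDiscreteValuationRing A₀]
    [Algebra A₀ K₁] [IsFractionRing A₀ K₁]
    [Algebra A₀ (ModelField K₁ N)] [IsScalarTower A₀ K₁ (ModelField K₁ N)],
    ∀ (ϖ : A₀), Irreducible ϖ →
    ∀ (x : ModelField K₁ N), (x : LaurentSeries K₁) = coeffEmb K₁ (h9S ℚ) →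
    ∀ g : A₀[X], g.Monic → Irreducible (g.map (IsLocalRing.residue A₀)) →
      (¬ ∃ p r : A₀[X], (X : A₀[X]) = C ϖ * p + g * r) →
      (¬ ∃ p r : A₀[X], (X ^ 2 + C 9 * X + C 27 : A₀[X]) = C ϖ * p + g * r) →
      UnramifiedNear A₀ (ModelField K₁ N) ϖ x g

/-- **HM-DER, level 9**: at every finite place `V` of the chart `j` of the model field of level
`N`, `9 ∣ N`, the derivation `d/dH` preserves the valuation ring: if `θ · ϑ(H) = ϑ(f)` on
`q`-expansions and `f ∈ V`, then `θ ∈ V`.  (`H` is a local coordinate at every non-cuspidal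
place: `ord_h9Bar_sub_eq_one`.) -/
def ModelDerivRegularH9Statement (N : ℕ) : Prop :=
  ∀ (K₁ : Type) [Field K₁] [Algebra ℚ K₁] [FiniteDimensional ℚ K₁]
    (A₀ : Type) [CommRing A₀] [IsDomain A₀] [IsDiscreteValuationRing A₀]
    [Algebra A₀ K₁] [IsFractionRing A₀ K₁]
    [Algebra A₀ (ModelField K₁ N)] [IsScalarTower A₀ K₁ (ModelField K₁ N)]
    (x H f θ : ModelField K₁ N),
    (x : LaurentSeries K₁) = coeffEmb K₁ jq →
    (H : LaurentSeries K₁) = h9S K₁ →
    (θ : LaurentSeries K₁) * theta (H : LaurentSeries K₁) = theta (f : LaurentSeries K₁) →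
    ∀ V : ValuationSubring (ModelField K₁ N), IsFinitePlace A₀ (ModelField K₁ N) x V →
      f ∈ V → θ ∈ V

/-- **HM-BASICS, level 9**: the Hauptmodul `H` and `H_q = H(t^q)` in the model field of level
`M q` (`9 ∣ M`, `q ≠ 3`): integral over `A₀[j]`, units off the cusps, exchanged by `W_q`, and
`W_q` preserves `B(j)`. -/
def ModelHauptBasicsH9Statement (M q : ℕ) [NeZero M] [NeZero q] : Prop :=
  ∀ (K₁ : Type) [Field K₁] [Algebra ℚ K₁] [FiniteDimensional ℚ K₁]
    (A₀ : Type) [CommRing A₀] [IsDomain A₀] [IsDiscreteValuationRing A₀]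
    [Algebra A₀ K₁] [IsFractionRing A₀ K₁]
    [Algebra A₀ (ModelField K₁ (M * q))] [IsScalarTower A₀ K₁ (ModelField K₁ (M * q))],
    ¬ IsUnit ((q : ℕ) : A₀) →
    ∀ (x : ModelField K₁ (M * q)), (x : LaurentSeries K₁) = coeffEmb K₁ jq →
    ∀ (W : ModelField K₁ (M * q) ≃ₐ[K₁] ModelField K₁ (M * q)), IsAtkinLehnerModel K₁ M q W →
      (∀ s ∈ chartClosure A₀ (ModelField K₁ (M * q)) x,
        W s ∈ chartClosure A₀ (ModelField K₁ (M * q)) x) ∧
      ∃ H Hq u uq : ModelField K₁ (M * q),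
        (H : LaurentSeries K₁) = h9S K₁ ∧
        (Hq : LaurentSeries K₁) = qExpand K₁ q (h9S K₁) ∧
        H ∈ chartClosure A₀ (ModelField K₁ (M * q)) x ∧
        Hq ∈ chartClosure A₀ (ModelField K₁ (M * q)) x ∧
        u ∈ chartClosure A₀ (ModelField K₁ (M * q)) x ∧
        uq ∈ chartClosure A₀ (ModelField K₁ (M * q)) x ∧
        u * (H * (H ^ 2 + 9 * H + 27)) = 1 ∧ uq * (Hq * (Hq ^ 2 + 9 * Hq + 27)) = 1 ∧
        W H = Hq ∧ W Hq = H

/-! ## The three model inputs of the crossing-point row, level 9 -/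

/-- **Crossing points are supersingular, level 9** (twin of
`Fermat.Agent.H59.SS.SSCrossDataStatement`): at a maximal ideal `𝔪 ∋ ϖ` of `B(x)`, `x = j`,
lying on both components, the Hauptmodul `H` of level `9` and `H_q = H(t^q)` lie in `B(x)` and
form supersingular data. -/
def SSCrossData9Statement (M q : ℕ) [NeZero M] [NeZero q] : Prop :=
  ∀ (K₁ : Type) [Field K₁] [Algebra ℚ K₁] [FiniteDimensional ℚ K₁]
    (A₀ : Type) [CommRing A₀] [IsDomain A₀] [IsDiscreteValuationRing A₀]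
    [Algebra A₀ K₁] [IsFractionRing A₀ K₁]
    [Algebra A₀ (ModelField K₁ (M * q))] [IsScalarTower A₀ K₁ (ModelField K₁ (M * q))],
    ¬ IsUnit ((q : ℕ) : A₀) →
    ∀ (ϖ : A₀), Irreducible ϖ →
    ∀ (x : ModelField K₁ (M * q)), (x : LaurentSeries K₁) = coeffEmb K₁ jq →
    ∀ (W : ModelField K₁ (M * q) ≃ₐ[K₁] ModelField K₁ (M * q)), IsAtkinLehnerModel K₁ M q W →
    ∀ 𝔪 : Ideal (chartClosure A₀ (ModelField K₁ (M * q)) x), 𝔪.IsMaximal →
      algebraMap A₀ (chartClosure A₀ (ModelField K₁ (M * q)) x) ϖ ∈ 𝔪 →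
      SSOnInfty K₁ (M * q) A₀ ϖ x 𝔪 → SSOnZero K₁ (M * q) A₀ ϖ W x 𝔪 →
      ∃ (D Ψ : A₀[X][Y]) (H Hq : chartClosure A₀ (ModelField K₁ (M * q)) x),
        (((H : ModelField K₁ (M * q)) : LaurentSeries K₁) = h9S K₁) ∧
        (((Hq : ModelField K₁ (M * q)) : LaurentSeries K₁) = qExpand K₁ q (h9S K₁)) ∧
        IsSSData 𝔪 q D Ψ H Hq

/-- **The level-`M` tube in the chart `H`, level 9** (twin of
`Fermat.Agent.H59.SS.SSLocAModelStatement`). -/
def SSLocAModel9Statement (M q : ℕ) [NeZero M] [NeZero q] (R : ℕ) : Prop :=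
  ∀ (K₁ : Type) [Field K₁] [Algebra ℚ K₁] [FiniteDimensional ℚ K₁]
    (A₀ : Type) [CommRing A₀] [IsDomain A₀] [IsDiscreteValuationRing A₀]
    [Algebra A₀ K₁] [IsFractionRing A₀ K₁]
    [Algebra A₀ (ModelField K₁ (M * q))] [IsScalarTower A₀ K₁ (ModelField K₁ (M * q))],
    ¬ IsUnit ((q : ℕ) : A₀) →
    (∃ ζ : K₁, IsPrimitiveRoot ζ R) →
    ∀ (ϖ : A₀), Irreducible ϖ →
    ∀ (x : ModelField K₁ (M * q)), (x : LaurentSeries K₁) = coeffEmb K₁ jq →
    ∀ (W : ModelField K₁ (M * q) ≃ₐ[K₁] ModelField K₁ (M * q)), IsAtkinLehnerModel K₁ M q W →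
    ∀ 𝔪 : Ideal (chartClosure A₀ (ModelField K₁ (M * q)) x), 𝔪.IsMaximal →
      algebraMap A₀ (chartClosure A₀ (ModelField K₁ (M * q)) x) ϖ ∈ 𝔪 →
      SSOnInfty K₁ (M * q) A₀ ϖ x 𝔪 → SSOnZero K₁ (M * q) A₀ ϖ W x 𝔪 →
      ∀ H' : ModelField K₁ M, ((H' : LaurentSeries K₁) = h9S K₁) →
        letI := ssAlgLevel K₁ M q
        letI := ssAlgBase K₁ M A₀
        SSLocA A₀ (ModelField K₁ M) (ModelField K₁ (M * q)) x 𝔪 H'

/-- **Generation, level 9** (twin of `Fermat.Agent.H59.SS.SSGenStatement`): the model field of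
level `M q` is generated over the model field of level `M` by `H_q = H(t^q)`. -/
def SSGen9Statement (M q : ℕ) [NeZero M] [NeZero q] : Prop :=
  ∀ (K₁ : Type) [Field K₁] [Algebra ℚ K₁] [FiniteDimensional ℚ K₁],
    letI := ssAlgLevel K₁ M q
    ∀ Hq : ModelField K₁ (M * q), ((Hq : LaurentSeries K₁) = qExpand K₁ q (h9S K₁)) →
      Algebra.adjoin (ModelField K₁ M) ({Hq} : Set (ModelField K₁ (M * q))) = ⊤

/-- **Place generators at the crossing points, level 9**, from the three model inputs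
(twin of `Fermat.Agent.H59.SS.ssPlaceGenCross_of`). -/
theorem ssPlaceGenCross9_of (M q : ℕ) [NeZero M] [NeZero q] (h9 : 9 ∣ M) (R : ℕ)
    (hData : SSCrossData9Statement M q) (hLocA : SSLocAModel9Statement M q R)
    (hGen : SSGen9Statement M q) : SSPlaceGenCrossStatement M q jq R := by
  intro K₁ _ _ _ A₀ _ _ _ _ _ _ _ hq hζ ϖ hϖ x hx W hW 𝔪 h𝔪 hϖ𝔪 hInf hZero
  haveI : CharZero K₁ := charZero_of_injective_algebraMap (algebraMap ℚ K₁).injective
  have hinj : Function.Injective (algebraMap A₀ (ModelField K₁ (M * q))) := by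
    rw [IsScalarTower.algebraMap_eq A₀ K₁ (ModelField K₁ (M * q))]
    exact (algebraMap K₁ (ModelField K₁ (M * q))).injective.comp
      (IsFractionRing.injective A₀ K₁)
  have hq0 : ((q : ℕ) : A₀) ≠ 0 := by
    intro h0
    have h1 : algebraMap A₀ K₁ ((q : ℕ) : A₀) = 0 := by rw [h0, map_zero]
    rw [map_natCast] at h1
    exact NeZero.ne q (Nat.cast_injective (R := K₁) (by rw [h1, Nat.cast_zero]))
  obtain ⟨D, Ψ, H, Hq, hH, hHq, hs⟩ := hData K₁ A₀ hq ϖ hϖ x hx W hW 𝔪 h𝔪 hϖ𝔪 hInf hZero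
  letI algL := ssAlgLevel K₁ M q
  letI algB := ssAlgBase K₁ M A₀
  haveI tower : IsScalarTower A₀ (ModelField K₁ M) (ModelField K₁ (M * q)) := by
    refine IsScalarTower.of_algebraMap_eq (fun a => ?_)
    rw [IsScalarTower.algebraMap_apply A₀ K₁ (ModelField K₁ (M * q))]
    exact ((heckeAlphaBar K₁ M q).commutes (algebraMap A₀ K₁ a)).symm
  set H' : ModelField K₁ M := ⟨h9S K₁, h9S_mem_laurentBaseChange K₁ M h9⟩ with hH'def
  have hH' : ((H : ModelField K₁ (M * q))) = algebraMap (ModelField K₁ M) _ H' := by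
    apply Subtype.ext
    rw [hH]
    exact (coe_heckeAlphaBar (L := K₁) (N := M) (ℓ := q) H').symm
  have hgen := hGen K₁ (Hq : ModelField K₁ (M * q)) hHq
  have hLoc := hLocA K₁ A₀ hq hζ ϖ hϖ x hx W hW 𝔪 h𝔪 hϖ𝔪 hInf hZero H' rfl
  -- `E` is algebraic over `E'`
  have hxr : x ∈ (IsScalarTower.toAlgHom A₀ (ModelField K₁ M) (ModelField K₁ (M * q))).range := by
    have hjq : coeffEmb K₁ jq ∈ laurentBaseChange K₁ (modularFunctionFieldFull M) :=
      coeffEmb_mem_laurentBaseChange K₁ (by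
        have h := jqd_mem_full M (one_dvd M)
        rwa [qExpand_one_apply] at h)
    refine ⟨⟨coeffEmb K₁ jq, hjq⟩, ?_⟩
    apply Subtype.ext
    rw [hx]
    exact coe_heckeAlphaBar (L := K₁) (N := M) (ℓ := q) _
  have hle : chartRing A₀ (ModelField K₁ (M * q)) x ≤
      (IsScalarTower.toAlgHom A₀ (ModelField K₁ M) (ModelField K₁ (M * q))).range := by
    unfold chartRing
    rw [Algebra.adjoin_le_iff]
    rintro z hz
    rw [Set.mem_singleton_iff] at hz
    rw [hz]
    exact hxr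
  have hHqint : IsIntegral (ModelField K₁ M) (Hq : ModelField K₁ (M * q)) := by
    have h1 : IsIntegral (chartRing A₀ (ModelField K₁ (M * q)) x)
        (Hq : ModelField K₁ (M * q)) := Hq.2
    have hαinj : Function.Injective
        (IsScalarTower.toAlgHom A₀ (ModelField K₁ M) (ModelField K₁ (M * q))) :=
      (algebraMap (ModelField K₁ M) (ModelField K₁ (M * q))).injective
    let e := AlgEquiv.ofInjective
      (IsScalarTower.toAlgHom A₀ (ModelField K₁ M) (ModelField K₁ (M * q))) hαinj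
    let φ : chartRing A₀ (ModelField K₁ (M * q)) x →+* ModelField K₁ M :=
      (e.symm : _ →+* ModelField K₁ M).comp (Subalgebra.inclusion hle).toRingHom
    have hφ : (algebraMap (ModelField K₁ M) (ModelField K₁ (M * q))).comp φ =
        (RingHom.id (ModelField K₁ (M * q))).comp
          (algebraMap (chartRing A₀ (ModelField K₁ (M * q)) x) (ModelField K₁ (M * q))) := by
      apply RingHom.ext
      intro c
      have h2 : e (e.symm (Subalgebra.inclusion hle c)) = Subalgebra.inclusion hle c :=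
        e.apply_symm_apply _
      exact congrArg Subtype.val h2
    exact IsIntegral.map_of_comp_eq φ (RingHom.id _) hφ h1
  haveI : Algebra.IsAlgebraic (ModelField K₁ M) (ModelField K₁ (M * q)) := by
    haveI : Algebra.IsIntegral (ModelField K₁ M) (ModelField K₁ (M * q)) := by
      refine ⟨fun z => ?_⟩
      have hz : z ∈ Algebra.adjoin (ModelField K₁ M)
          ({(Hq : ModelField K₁ (M * q))} : Set (ModelField K₁ (M * q))) := by
        rw [hgen]
        exact Algebra.mem_top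
      exact adjoin_le_integralClosure hHqint hz
    exact Algebra.IsIntegral.isAlgebraic
  exact placeGenAt_of_ss hinj hϖ h𝔪 hϖ𝔪 hq0 hs hH' hgen hLoc

end Fermat.Agent.H31.SS
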