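/-
P-SS, crossing points (row 647), GENERIC CORE, part 2 (helper31): **residue side**
(commutative algebra).

`B` a commutative ring, `𝔪 ∋ q` a maximal ideal, `H, H_q ∈ B` with `H_q ≡ H^q`, `H ≡ H_q^q`
modulo `𝔪`, `d(H) ∉ 𝔪`.  If `Ψ₀(H, H_q) ∈ 𝔪`, then the minimal polynomial `g` of
`a = H mod 𝔪` over `𝔽_q` divides both `P₀ = Ψ̄₀(X, X^q)` and `X^(q²) - X`, and the cofactor
`C₁` of `g` in `d̄^n (X - X^(q²))` does not vanish at `a` (`X^(q²) - X` is separable).
-/
import Fermat.Agent.H8.SS.KroneckerDelta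

set_option autoImplicit false
set_option linter.unusedSectionVars false
set_option linter.style.haveILetI false

noncomputable section

open Polynomial
open scoped Polynomial.Bivariate

namespace Fermat.Agent.H31.SS

open Fermat.Agent.H8.SS

section residue

variable {B : Type*} [CommRing B]

/-- evaluation of an integral polynomial commutes with ring homomorphisms -/
theorem map_aeval_int {S : Type*} [CommRing S] (φ : B →+* S) (H : B) (P : ℤ[X]) :
    φ (aeval H P) = aeval (φ H) P := by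
  rw [aeval_def, aeval_def, Polynomial.hom_eval₂]
  congr 1
  exact RingHom.ext_int _ _

/-- evaluation of an integral polynomial in characteristic `q` -/
theorem aeval_map_zmod (q : ℕ) [Fact q.Prime] {k : Type*} [Field k] [CharP k q]
    [Algebra (ZMod q) k] (a : k) (P : ℤ[X]) :
    aeval a (P.map (Int.castRingHom (ZMod q))) = aeval a P := by
  rw [aeval_def, aeval_def, eval₂_map]
  congr 1
  exact RingHom.ext_int _ _

/-- evaluation of an integral bivariate polynomial commutes with ring homomorphisms -/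
theorem map_evalEval_int {S : Type*} [CommRing S] (φ : B →+* S) (H Hq : B)
    (Ψ₀ : Polynomial (Polynomial ℤ)) :
    φ ((Ψ₀.map (mapRingHom (Int.castRingHom B))).evalEval H Hq) =
      (Ψ₀.map (mapRingHom (Int.castRingHom S))).evalEval (φ H) (φ Hq) := by
  rw [← map_mapRingHom_evalEval, Polynomial.map_map, mapRingHom_comp]
  congr 3
  exact RingHom.ext_int _ _

/-- `P₀(a) = Ψ̄₀(a, a^q)` -/
theorem aeval_frobSpecial_field (q : ℕ) [Fact q.Prime] {k : Type*} [Field k] [CharP k q]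
    [Algebra (ZMod q) k] (a : k) (Ψ₀ : Polynomial (Polynomial ℤ)) :
    aeval a (frobSpecial q Ψ₀) =
      (Ψ₀.map (mapRingHom (Int.castRingHom k))).evalEval a (a ^ q) := by
  have h1 : aeval a (frobSpecial q Ψ₀) =
      (redPoly q Ψ₀).eval₂ (eval₂RingHom (algebraMap (ZMod q) k) a) (a ^ q) := by
    rw [frobSpecial, Polynomial.eval, aeval_def, ← coe_eval₂RingHom, Polynomial.hom_eval₂,
      RingHom.comp_id, coe_eval₂RingHom, eval₂_pow, eval₂_X]
  rw [h1, eval₂_eval₂RingHom_apply, redPoly, Polynomial.map_map, mapRingHom_comp]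
  congr 3
  exact RingHom.ext_int _ _

/-- **The residue side of the crossing-point core.** -/
theorem core_residue (𝔪 : Ideal B) [h𝔪 : 𝔪.IsMaximal] (q : ℕ) [hq : Fact q.Prime]
    (hq𝔪 : ((q : ℕ) : B) ∈ 𝔪) (H Hq : B) (hX : Hq - H ^ q ∈ 𝔪) (hY : H - Hq ^ q ∈ 𝔪)
    (d : ℤ[X]) (n : ℕ) (hd : aeval H d ∉ 𝔪)
    (Ψ₀ : Polynomial (Polynomial ℤ))
    (hΨ : (Ψ₀.map (mapRingHom (Int.castRingHom B))).evalEval H Hq ∈ 𝔪) :
    ∃ g P₁ C₁ : (ZMod q)[X], g ≠ 0 ∧ frobSpecial q Ψ₀ = g * P₁ ∧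
      (d.map (Int.castRingHom (ZMod q))) ^ n * (X - X ^ (q ^ 2)) = g * C₁ ∧ C₁ ≠ 0 ∧
      ∀ Ct : ℤ[X], Ct.map (Int.castRingHom (ZMod q)) = C₁ → aeval H Ct ∉ 𝔪 := by
  letI : Field (B ⧸ 𝔪) := Ideal.Quotient.field 𝔪
  set π : B →+* B ⧸ 𝔪 := Ideal.Quotient.mk 𝔪 with hπ
  haveI : CharP (B ⧸ 𝔪) q := by
    rw [CharP.charP_iff_prime_eq_zero hq.out]
    have := (Ideal.Quotient.eq_zero_iff_mem (I := 𝔪)).mpr hq𝔪
    rwa [map_natCast] at this
  letI : Algebra (ZMod q) (B ⧸ 𝔪) := ZMod.algebra (B ⧸ 𝔪) q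
  set a : B ⧸ 𝔪 := π H with ha
  have hb : π Hq = a ^ q := by
    have := (Ideal.Quotient.eq_zero_iff_mem (I := 𝔪)).mpr hX
    rw [map_sub, map_pow, sub_eq_zero] at this
    exact this
  have haq : a ^ (q ^ 2) = a := by
    have := (Ideal.Quotient.eq_zero_iff_mem (I := 𝔪)).mpr hY
    rw [map_sub, map_pow, sub_eq_zero] at this
    rw [pow_two, pow_mul, ← hb]
    exact this.symm
  -- `V = X^(q²) - X`
  set V : (ZMod q)[X] := X ^ (q ^ 2) - X with hV
  have hVa : aeval a V = 0 := by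
    rw [hV, map_sub, map_pow, aeval_X, haq, sub_self]
  have hq2 : 1 < q ^ 2 := by
    have := hq.out.two_le
    nlinarith
  have hVmonic : V.Monic := by
    rw [hV]
    apply (monic_X_pow (q ^ 2)).sub_of_left
    rw [degree_X_pow, degree_X]
    exact_mod_cast hq2
  have hint : IsIntegral (ZMod q) a := ⟨V, hVmonic, by rw [← aeval_def]; exact hVa⟩
  set g : (ZMod q)[X] := minpoly (ZMod q) a with hg
  have hg0 : g ≠ 0 := minpoly.ne_zero hint
  have hga : aeval a g = 0 := minpoly.aeval _ _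
  -- `g ∣ P₀`
  have hP₀a : aeval a (frobSpecial q Ψ₀) = 0 := by
    rw [aeval_frobSpecial_field, ← hb, ha, ← map_evalEval_int]
    exact (Ideal.Quotient.eq_zero_iff_mem (I := 𝔪)).mpr hΨ
  obtain ⟨P₁, hP₁⟩ := minpoly.dvd (ZMod q) a hP₀a
  obtain ⟨V₁, hV₁⟩ := minpoly.dvd (ZMod q) a hVa
  -- the derivative of `V` is `-1`
  have hVder : derivative V = -1 := by
    rw [hV, derivative_sub, derivative_X_pow, derivative_X]
    have : ((q ^ 2 : ℕ) : (ZMod q)[X]) = 0 := by
      rw [← map_natCast (C : ZMod q →+* (ZMod q)[X])]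
      have : ((q ^ 2 : ℕ) : ZMod q) = 0 := by
        rw [Nat.cast_pow, ZMod.natCast_self]
        exact zero_pow two_ne_zero
      rw [this, map_zero]
    rw [show (C ((q ^ 2 : ℕ) : ZMod q) : (ZMod q)[X]) = ((q ^ 2 : ℕ) : (ZMod q)[X]) from
      (map_natCast (C : ZMod q →+* (ZMod q)[X]) _), this, zero_mul, zero_sub]
  have hV₁a : aeval a V₁ ≠ 0 := by
    intro h0
    have h1 := congrArg (aeval a) (congrArg derivative hV₁)
    rw [hVder, derivative_mul, map_add, map_mul, map_mul, hga, h0, mul_zero, zero_mul,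
      add_zero, map_neg, map_one] at h1
    exact one_ne_zero (neg_eq_zero.mp h1)
  -- `d̄(a) ≠ 0`
  have hda : aeval a (d.map (Int.castRingHom (ZMod q))) ≠ 0 := by
    rw [aeval_map_zmod, ha, ← map_aeval_int]
    intro h0
    exact hd ((Ideal.Quotient.eq_zero_iff_mem (I := 𝔪)).mp h0)
  set C₁ : (ZMod q)[X] := -((d.map (Int.castRingHom (ZMod q))) ^ n * V₁) with hC₁
  have hC₁a : aeval a C₁ ≠ 0 := by
    rw [hC₁, map_neg, map_mul, map_pow]
    exact neg_ne_zero.mpr (mul_ne_zero (pow_ne_zero _ hda) hV₁a)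
  refine ⟨g, P₁, C₁, hg0, hP₁, ?_, ?_, ?_⟩
  · rw [hC₁, show (X : (ZMod q)[X]) - X ^ (q ^ 2) = -V by rw [hV]; ring, hV₁]
    ring
  · intro h0
    rw [h0, map_zero] at hC₁a
    exact hC₁a rfl
  · intro Ct hCt hmem
    apply hC₁a
    rw [← hCt, aeval_map_zmod, ha, ← map_aeval_int]
    exact (Ideal.Quotient.eq_zero_iff_mem (I := 𝔪)).mpr hmem

end residue

end Fermat.Agent.H31.SS
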