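/-
P-SS, crossing points (row 647), GENERIC CORE, part 1 (helper31): **series side**.

`h = t⁻¹ + … ∈ ℤ((t))` a Hauptmodul-like series (`IsHauptSeries`), `q` a prime.

* `IsHauptSeries.coeff_pow_self`, `coeff_pow_of_lt`, `coeff_aeval_natDegree`,
  `aeval_ne_zero` : triangularity; `h` is transcendental over every domain.
* `core_series` : from the Kronecker relation `d(h)^n (h_q - h^q)(h - h_q^q) = q Ψ₀(h, h_q)` and
  a common factor `g` of `P₀ = Ψ̄₀(X, X^q)` and `d̄^n (X - X^(q²))`: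
  `κ · C̃₁(h)² - Ñ₁(h) ∈ q ℤ((t))`  (`κ = (ϑ h)(t^q) / ϑ h`).
* `redQ_kappa_mul_ne_zero`, `redQ_aeval_qExpand_ne_zero` : the denominators are primitive.
-/
import Fermat.Agent.H31.SS.KappaSeries

set_option autoImplicit false
set_option linter.unusedSectionVars false
set_option linter.style.haveILetI false

noncomputable section

open HahnSeries ModularCurve Polynomial

namespace Fermat.Agent.H31.SS

open Fermat.Agent.H8.SS Fermat.Agent.H27

section triangular

variable {R : Type*} [CommRing R] [IsDomain R]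

theorem IsHauptSeries.ne_zero' {h : LaurentSeries R} (hh : IsHauptSeries h) : h ≠ 0 := by
  intro h0
  have h1 := hh.coeff_neg_one
  rw [h0, HahnSeries.coeff_zero] at h1
  exact zero_ne_one h1

theorem IsHauptSeries.order_eq {h : LaurentSeries R} (hh : IsHauptSeries h) :
    h.order = -1 := by
  have h0 := hh.ne_zero'
  apply le_antisymm
  · apply HahnSeries.order_le_of_coeff_ne_zero
    rw [hh.coeff_neg_one]
    exact one_ne_zero
  · by_contra hlt
    rw [not_le] at hlt
    have h1 := HahnSeries.leadingCoeff_ne_zero.mpr h0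
    rw [HahnSeries.leadingCoeff_eq, hh.coeff_lt _ hlt] at h1
    exact h1 rfl

theorem IsHauptSeries.leadingCoeff_eq_one {h : LaurentSeries R} (hh : IsHauptSeries h) :
    h.leadingCoeff = 1 := by
  rw [HahnSeries.leadingCoeff_eq, hh.order_eq, hh.coeff_neg_one]

theorem IsHauptSeries.order_pow_eq {h : LaurentSeries R} (hh : IsHauptSeries h) (i : ℕ) :
    (h ^ i).order = -(i : ℤ) := by
  rw [HahnSeries.order_pow, hh.order_eq]
  simp

theorem IsHauptSeries.leadingCoeff_pow_eq {h : LaurentSeries R} (hh : IsHauptSeries h)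
    (i : ℕ) : (h ^ i).leadingCoeff = 1 := by
  induction i with
  | zero => simp
  | succ i ih => rw [pow_succ, HahnSeries.leadingCoeff_mul, ih, hh.leadingCoeff_eq_one, one_mul]

theorem IsHauptSeries.coeff_pow_self {h : LaurentSeries R} (hh : IsHauptSeries h) (i : ℕ) :
    (h ^ i).coeff (-(i : ℤ)) = 1 := by
  have := hh.leadingCoeff_pow_eq i
  rwa [HahnSeries.leadingCoeff_eq, hh.order_pow_eq] at this

theorem IsHauptSeries.coeff_pow_of_lt {h : LaurentSeries R} (hh : IsHauptSeries h) {i : ℕ}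
    {n : ℤ} (hn : n < -(i : ℤ)) : (h ^ i).coeff n = 0 :=
  HahnSeries.coeff_eq_zero_of_lt_order (by rw [hh.order_pow_eq]; exact hn)

omit [IsDomain R] in
theorem algebraMap_laurent_eq_single (c : R) :
    algebraMap R (LaurentSeries R) c = HahnSeries.single 0 c := by
  have h1 : algebraMap R (PowerSeries R) c = PowerSeries.C c := by simp
  rw [HahnSeries.algebraMap_apply', h1, HahnSeries.ofPowerSeries_C]
  rfl

/-- the coefficient of `t^(-deg P)` in `P(h)` is the leading coefficient of `P` -/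
theorem IsHauptSeries.coeff_aeval_natDegree {h : LaurentSeries R} (hh : IsHauptSeries h)
    (P : R[X]) : (aeval h P).coeff (-(P.natDegree : ℤ)) = P.leadingCoeff := by
  rw [aeval_eq_sum_range, HahnSeries.coeff_sum, Finset.sum_range_succ, Finset.sum_eq_zero,
    zero_add, Algebra.smul_def, algebraMap_laurent_eq_single, HahnSeries.coeff_single_zero_mul,
    hh.coeff_pow_self, mul_one, coeff_natDegree]
  intro i hi
  rw [Algebra.smul_def, algebraMap_laurent_eq_single, HahnSeries.coeff_single_zero_mul,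
    hh.coeff_pow_of_lt (by have := Finset.mem_range.mp hi; omega), mul_zero]

/-- a Hauptmodul-like series is transcendental -/
theorem IsHauptSeries.aeval_ne_zero {h : LaurentSeries R} (hh : IsHauptSeries h)
    {P : R[X]} (hP : P ≠ 0) : aeval h P ≠ 0 := by
  intro h0
  have h1 := hh.coeff_aeval_natDegree P
  rw [h0, HahnSeries.coeff_zero] at h1
  exact hP (leadingCoeff_eq_zero.mp h1.symm)

end triangular

section core

variable (q : ℕ) [hq : Fact q.Prime]

theorem isHauptSeries_redQ {h : LaurentSeries ℤ} (hh : IsHauptSeries h) :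
    IsHauptSeries (redQ q h) := hh.map _

theorem redQ_aeval_int (h : LaurentSeries ℤ) (P : ℤ[X]) :
    redQ q (aeval h P) = aeval (redQ q h) (P.map (Int.castRingHom (ZMod q))) :=
  coeffMap_aeval_int _ h P

/-- **The series side of the crossing-point core.** -/
theorem core_series {h : LaurentSeries ℤ} (hh : IsHauptSeries h) (d : ℤ[X]) (n : ℕ)
    (Ψ₀ : Polynomial (Polynomial ℤ))
    (hK : aeval h d ^ n * ((qExpand ℤ q h - h ^ q) * (h - (qExpand ℤ q h) ^ q)) =
      (q : LaurentSeries ℤ) * Ψ₀.eval₂ (evalAt h) (qExpand ℤ q h))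
    (g P₁ C₁ : (ZMod q)[X]) (hg0 : g ≠ 0) (hP : frobSpecial q Ψ₀ = g * P₁)
    (hC : (d.map (Int.castRingHom (ZMod q))) ^ n * (X - X ^ (q ^ 2)) = g * C₁)
    (Ct Nt : ℤ[X]) (hCt : Ct.map (Int.castRingHom (ZMod q)) = C₁)
    (hNt : Nt.map (Int.castRingHom (ZMod q)) =
      X ^ (q - 1) * C₁ ^ 2 + derivative P₁ * C₁ - P₁ * derivative C₁) :
    ∃ R : LaurentSeries ℤ, kappaZ q h * aeval h Ct ^ 2 - aeval h Nt = (q : ℤ) • R := by
  apply exists_eq_smul_of_redQ_eq_zero
  have hΨ : redQ q (Ψ₀.eval₂ (evalAt h) (qExpand ℤ q h)) =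
      aeval (redQ q h) (frobSpecial q Ψ₀) := by
    rw [redQ_eval₂, aeval_frobSpecial, redQ_qExpand]
  have hmain := redQ_kappaZ_mul q hh d n _ hK (frobSpecial q Ψ₀) g P₁ C₁ hΨ hP hC
    ((isHauptSeries_redQ q hh).aeval_ne_zero hg0)
  rw [map_sub, map_mul, map_pow, redQ_aeval_int, redQ_aeval_int, hCt, hNt, hmain, sub_self]

/-- the denominator `κ C̃₁(h)²` is primitive -/
theorem redQ_kappa_mul_ne_zero {h : LaurentSeries ℤ} (hh : IsHauptSeries h)
    (C₁ : (ZMod q)[X]) (hC₁ : C₁ ≠ 0) (Ct : ℤ[X])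
    (hCt : Ct.map (Int.castRingHom (ZMod q)) = C₁) :
    redQ q (kappaZ q h * aeval h Ct ^ 2) ≠ 0 := by
  rw [map_mul, map_pow, redQ_aeval_int, hCt]
  exact mul_ne_zero (isUnit_redQ_kappaZ q hh).ne_zero
    (pow_ne_zero _ ((isHauptSeries_redQ q hh).aeval_ne_zero hC₁))

/-- the denominator `C̃₁(h_q)²` is primitive -/
theorem redQ_aeval_qExpand_ne_zero {h : LaurentSeries ℤ} (hh : IsHauptSeries h)
    (C₁ : (ZMod q)[X]) (hC₁ : C₁ ≠ 0) (Ct : ℤ[X])
    (hCt : Ct.map (Int.castRingHom (ZMod q)) = C₁) :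
    redQ q (aeval (qExpand ℤ q h) Ct ^ 2) ≠ 0 := by
  have h1 : aeval (qExpand ℤ q h) Ct = qExpand ℤ q (aeval h Ct) := by
    rw [aeval_def, aeval_def, Polynomial.hom_eval₂]
    congr 1
    exact RingHom.ext_int _ _
  rw [map_pow, h1, redQ_qExpand, redQ_aeval_int, hCt]
  exact pow_ne_zero _ (pow_ne_zero _ ((isHauptSeries_redQ q hh).aeval_ne_zero hC₁))

end core

end Fermat.Agent.H31.SS
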