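/-
P-SS, crossing points (row 647), GENERIC CORE, part 3 (helper31): **model side**.

* `ssMaxInfty_of_int` : a quotient `a / b` of elements of the model field whose `q`-expansions
  come from `ℤ((t))`, `a ∈ q ℤ((t))`, `b` nonzero modulo `q`, lies in the maximal ideal of the
  Gauss valuation ring at `∞` (`Fermat.Agent.H45.SSMaxInfty`).
* `coe_aeval_int` : `q`-expansion of `P(H)`, `P ∈ ℤ[X]`.
* `exists_kappa_model` : `u = q κ = dH_q / dH` in the model field: `q`-expansion
  `q · (ϑ h)(t^q) / ϑ h`, `u · ϑ(H) = ϑ(H_q)`, and `W u · u = 1`.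
-/
import Fermat.Agent.H31.SS.CoreSeries
import Fermat.Agent.H31.SS.CoreResidue
import Fermat.Agent.H31.SS.DiffAlg
import Fermat.Agent.H45.SS.Model
import Fermat.Agent.H2.KLBRModel

set_option autoImplicit false
set_option linter.unusedSectionVars false
set_option linter.style.haveILetI false

noncomputable section

open HahnSeries ModularCurve Polynomial

namespace Fermat.Agent.H31.SS

open Fermat.Agent.H8.SS Fermat.Agent.H27 Fermat.Agent.H22.KL Fermat.Agent.H45

section units

variable {A₀ : Type} [CommRing A₀] [IsLocalRing A₀]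

/-- an integer prime to `q` is a unit of a local ring of residue characteristic `q` -/
theorem isUnit_intCast_of_not_dvd {q : ℕ} (hq : q.Prime) (hqA : ¬ IsUnit ((q : ℕ) : A₀))
    {m : ℤ} (hm : ¬ (q : ℤ) ∣ m) : IsUnit ((m : ℤ) : A₀) := by
  have hcop : Nat.Coprime m.natAbs q := by
    rw [Nat.coprime_comm, Nat.Prime.coprime_iff_not_dvd hq]
    intro h
    exact hm (Int.natCast_dvd.mpr h)
  have h1 := Fermat.Agent.H2.klbr_isUnit_natCast_of_coprime hqA hcop
  rcases Int.natAbs_eq m with h | h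
  · rw [h, Int.cast_natCast]
    exact h1
  · rw [h, Int.cast_neg, Int.cast_natCast]
    exact h1.neg

end units

section int

variable (K₁ : Type) [Field K₁] [Algebra ℚ K₁] (N : ℕ)
  (A₀ : Type) [CommRing A₀] [IsDomain A₀] [IsDiscreteValuationRing A₀]
  [Algebra A₀ K₁] [IsFractionRing A₀ K₁]

/-- **Integral `q`-expansions give elements of `𝔪_∞`.** -/
theorem ssMaxInfty_of_int (q : ℕ) [hq : Fact q.Prime] (hqA : ¬ IsUnit ((q : ℕ) : A₀))
    (ϖ : A₀) (hϖ : Irreducible ϖ) (z a b : ModelField K₁ N) (a₀ b₀ : LaurentSeries ℤ)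
    (ha : (a : LaurentSeries K₁) = coeffMap (Int.castRingHom K₁) ((q : ℤ) • a₀))
    (hb : (b : LaurentSeries K₁) = coeffMap (Int.castRingHom K₁) b₀)
    (hb0 : redQ q b₀ ≠ 0) (h : z * b = a) : SSMaxInfty K₁ N A₀ ϖ z := by
  have hcast : ∀ m : ℤ, algebraMap A₀ K₁ ((m : ℤ) : A₀) = ((m : ℤ) : K₁) := fun m =>
    map_intCast _ m
  -- `ϖ ∣ q`
  have hdvd : ϖ ∣ ((q : ℕ) : A₀) := by
    have h1 : ((q : ℕ) : A₀) ∈ IsLocalRing.maximalIdeal A₀ :=
      (IsLocalRing.mem_maximalIdeal _).mpr hqA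
    rw [hϖ.maximalIdeal_eq, Ideal.mem_span_singleton] at h1
    exact h1
  obtain ⟨c₀, hc₀⟩ := hdvd
  refine ⟨a, b, fun n => ?_, fun n => ?_, ?_, h⟩
  · refine ⟨c₀ * ((a₀.coeff n : ℤ) : A₀), ?_⟩
    rw [ha, coeffMap_coeff, HahnSeries.coeff_smul, ← mul_assoc, ← hc₀, map_mul, map_natCast,
      hcast, smul_eq_mul]
    simp
  · rw [hb, coeffMap_coeff]
    exact ⟨((b₀.coeff n : ℤ) : A₀), by rw [hcast]; rfl⟩
  · have h1 : ¬ ∀ n : ℤ, (q : ℤ) ∣ b₀.coeff n := fun hall =>
      hb0 ((redQ_eq_zero_iff q b₀).mpr hall)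
    rw [not_forall] at h1
    obtain ⟨n, hn⟩ := h1
    refine ⟨n, ((b₀.coeff n : ℤ) : A₀), isUnit_intCast_of_not_dvd hq.out hqA hn, ?_⟩
    rw [hb, coeffMap_coeff, hcast]
    rfl

end int

section aeval

variable {K₁ : Type} [Field K₁] (E : IntermediateField K₁ (LaurentSeries K₁))

/-- the `q`-expansion of `P(H)`, `P ∈ ℤ[X]` -/
theorem coe_aeval_int (H : E) (h₀ : LaurentSeries ℤ)
    (hH : (H : LaurentSeries K₁) = coeffMap (Int.castRingHom K₁) h₀) (P : ℤ[X]) :
    ((aeval H P : E) : LaurentSeries K₁) = coeffMap (Int.castRingHom K₁) (aeval h₀ P) := by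
  show (E.val : E →+* LaurentSeries K₁) (aeval H P) = _
  rw [aeval_def, aeval_def, Polynomial.hom_eval₂, Polynomial.hom_eval₂]
  have h1 : (E.val : E →+* LaurentSeries K₁) H = coeffMap (Int.castRingHom K₁) h₀ := hH
  rw [h1]
  congr 1
  exact RingHom.ext_int _ _

end aeval

section kappa

variable {K₁ : Type} [Field K₁] [CharZero K₁] (E : IntermediateField K₁ (LaurentSeries K₁))

/-- the differential embedding of `E` given by a `K₁`-embedding into `K₁((t))` and `ϑ` -/
def thetaDiffEmb (φ : E →ₐ[K₁] LaurentSeries K₁) : DiffEmb K₁ E (LaurentSeries K₁) where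
  ι := φ
  d := theta
  d_add := map_add theta
  d_mul := fun a b => by rw [theta_mul]; ring
  d_const := fun c => by
    show theta (φ (algebraMap K₁ E c)) = 0
    rw [AlgHom.commutes]
    show theta (algebraMap K₁ (LaurentSeries K₁) c) = 0
    rw [algebraMap_laurent_eq_single, theta_single]
    simp

/-- **`u = dH_q / dH` in the model field**, with its `q`-expansion and its transformation
under the Atkin-Lehner involution. -/
theorem exists_kappa_model (q : ℕ) [hq : Fact q.Prime] (W : E ≃ₐ[K₁] E) (H Hq : E)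
    (h₀ : LaurentSeries ℤ) (hh : IsHauptSeries h₀)
    (hH : (H : LaurentSeries K₁) = coeffMap (Int.castRingHom K₁) h₀)
    (hHq : (Hq : LaurentSeries K₁) = qExpand K₁ q (coeffMap (Int.castRingHom K₁) h₀))
    (hWH : W H = Hq) (hWHq : W Hq = H)
    (halg : ∀ f : E, IsAlgebraic (IntermediateField.adjoin K₁ {H}) f) :
    ∃ u : E, (u : LaurentSeries K₁) = coeffMap (Int.castRingHom K₁) ((q : ℤ) • kappaZ q h₀) ∧
      W u * u = 1 ∧
      (u : LaurentSeries K₁) * theta (H : LaurentSeries K₁) = theta (Hq : LaurentSeries K₁) := by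
  haveI : NeZero q := ⟨hq.out.ne_zero⟩
  set D₁ : DiffEmb K₁ E (LaurentSeries K₁) := thetaDiffEmb E E.val with hD₁
  set D₂ : DiffEmb K₁ E (LaurentSeries K₁) :=
    thetaDiffEmb E (E.val.comp (W : E →ₐ[K₁] E)) with hD₂
  obtain ⟨u, h1, h2⟩ := DiffEmb.exists_common_deriv (D₁ := D₁) (D₂ := D₂) H halg Hq
  have h1' : theta (Hq : LaurentSeries K₁) = (u : LaurentSeries K₁) * theta (H : LaurentSeries K₁) :=
    h1
  have h2' : theta ((W Hq : E) : LaurentSeries K₁) =
      ((W u : E) : LaurentSeries K₁) * theta ((W H : E) : LaurentSeries K₁) := h2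
  rw [hWHq, hWH] at h2'
  have hhK : IsHauptSeries (coeffMap (Int.castRingHom K₁) h₀) := hh.map _
  have hθ0 : theta (H : LaurentSeries K₁) ≠ 0 := by
    rw [hH]
    exact hhK.theta_ne_zero
  refine ⟨u, ?_, ?_, h1'.symm⟩
  · -- the `q`-expansion of `u`
    have h3 : theta (Hq : LaurentSeries K₁) =
        coeffMap (Int.castRingHom K₁) ((q : ℤ) • kappaZ q h₀) * theta (H : LaurentSeries K₁) := by
      rw [hHq, hH, ← coeffMap_qExpand, ← coeffMap_theta, ← coeffMap_theta, ← map_mul,
        theta_qExpand, ← kappaZ_mul q hh]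
      congr 1
      rw [smul_mul_assoc, natCast_zsmul]
    rw [h1'] at h3
    exact mul_right_cancel₀ hθ0 h3
  · apply Subtype.ext
    have h4 : theta (H : LaurentSeries K₁) =
        (((W u : E) : LaurentSeries K₁) * (u : LaurentSeries K₁)) *
          theta (H : LaurentSeries K₁) := by
      rw [mul_assoc, ← h1']
      exact h2'
    have h5 : ((W u : E) : LaurentSeries K₁) * (u : LaurentSeries K₁) = 1 := by
      have h6 : (1 : LaurentSeries K₁) * theta (H : LaurentSeries K₁) =
          (((W u : E) : LaurentSeries K₁) * (u : LaurentSeries K₁)) *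
            theta (H : LaurentSeries K₁) := by rw [one_mul]; exact h4
      exact (mul_right_cancel₀ hθ0 h6).symm
    exact h5

end kappa

end Fermat.Agent.H31.SS
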