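/-
P-SS, crossing points (row 647), GENERIC CORE, part 4 (helper31): **the separating function**.

At a fixed model (`K₁`, `A₀`, `ϖ`, `x = j`, `W`) of level `M q`: `H`, `H_q` with `q`-expansions
`h`, `h(t^q)` (`h ∈ ℤ((t))` a Hauptmodul-like series), exchanged by `W`, the Kronecker relation
`d(h)^n (h_q - h^q)(h - h_q^q) = q Ψ₀(h, h_q)`, and a common factor `g` of `P₀ = Ψ̄₀(X, X^q)` and
`d̄^n (X - X^(q²)) = g C₁`, `C₁ ≠ 0`, with a lift `C̃₁` of `C₁`.  Then there are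
`u = dH_q / dH` in the model field and `Ñ₁ ∈ ℤ[X]` such that

  `e = q Ñ₁(H) W(u) / C̃₁(H)²`   (`= Ñ₁(H) / (C̃₁(H)² κ)`, `κ = u / q`)

satisfies `e - 1 ∈ 𝔪_∞`, `e ∈ 𝔪_0` and `e ∈ C(j)`.
-/
import Fermat.Agent.H31.SS.CoreModel
import Fermat.Agent.H7.SS2.Vertical
import Fermat.Agent.H41.SS.OrdGauss
import Fermat.Agent.H67.IgusaTransfer

set_option autoImplicit false
set_option linter.unusedSectionVars false
set_option linter.style.haveILetI false
set_option maxHeartbeats 1000000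

noncomputable section

open HahnSeries ModularCurve Polynomial

namespace Fermat.Agent.H31.SS

open Fermat.Agent.H8.SS Fermat.Agent.H27 Fermat.Agent.H22.KL Fermat.Agent.H45
open Fermat.Agent.H82.SS Fermat.Agent.H7.SS2

section sep

variable (M q : ℕ) [NeZero M] [NeZero q] [hq : Fact q.Prime]
  (K₁ : Type) [Field K₁] [Algebra ℚ K₁] [FiniteDimensional ℚ K₁]
  (A₀ : Type) [CommRing A₀] [IsDomain A₀] [IsDiscreteValuationRing A₀]
  [Algebra A₀ K₁] [IsFractionRing A₀ K₁]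
  [Algebra A₀ (ModelField K₁ (M * q))] [IsScalarTower A₀ K₁ (ModelField K₁ (M * q))]

/-- a ring homomorphism of the model field commutes with the evaluation of integral
polynomials -/
theorem model_map_aeval_int {N : ℕ} (W : ModelField K₁ N ≃ₐ[K₁] ModelField K₁ N)
    (H : ModelField K₁ N) (P : ℤ[X]) : W (aeval H P) = aeval (W H) P := by
  show (W : ModelField K₁ N →+* ModelField K₁ N) (aeval H P) = _
  rw [aeval_def, aeval_def, Polynomial.hom_eval₂]
  congr 1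
  exact RingHom.ext_int _ _

/-- **The separating function of the crossing-point core.** -/
theorem core_separating (hqM : ¬ q ∣ M) (hqA : ¬ IsUnit ((q : ℕ) : A₀))
    (ϖ : A₀) (hϖ : Irreducible ϖ)
    (x : ModelField K₁ (M * q)) (hx : (x : LaurentSeries K₁) = coeffEmb K₁ jq)
    (W : ModelField K₁ (M * q) ≃ₐ[K₁] ModelField K₁ (M * q))
    (hW : IsAtkinLehnerModel K₁ M q W)
    (h₀ : LaurentSeries ℤ) (hh : IsHauptSeries h₀)
    (H Hq : ModelField K₁ (M * q))
    (hH : (H : LaurentSeries K₁) = coeffMap (Int.castRingHom K₁) h₀)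
    (hHq : (Hq : LaurentSeries K₁) = qExpand K₁ q (coeffMap (Int.castRingHom K₁) h₀))
    (hWH : W H = Hq) (hWHq : W Hq = H)
    (halg : ∀ f : ModelField K₁ (M * q), IsAlgebraic (IntermediateField.adjoin K₁ {H}) f)
    (d : ℤ[X]) (n : ℕ) (Ψ₀ : Polynomial (Polynomial ℤ))
    (hK : aeval h₀ d ^ n * ((qExpand ℤ q h₀ - h₀ ^ q) * (h₀ - (qExpand ℤ q h₀) ^ q)) =
      (q : LaurentSeries ℤ) * Ψ₀.eval₂ (evalAt h₀) (qExpand ℤ q h₀))
    (g P₁ C₁ : (ZMod q)[X]) (hg0 : g ≠ 0) (hP : frobSpecial q Ψ₀ = g * P₁)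
    (hC : (d.map (Int.castRingHom (ZMod q))) ^ n * (X - X ^ (q ^ 2)) = g * C₁) (hC₁ : C₁ ≠ 0)
    (Ct : ℤ[X]) (hCt : Ct.map (Int.castRingHom (ZMod q)) = C₁) :
    ∃ (u : ModelField K₁ (M * q)) (Nt : ℤ[X]),
      (u : LaurentSeries K₁) * theta (H : LaurentSeries K₁) = theta (Hq : LaurentSeries K₁) ∧
      W u * u = 1 ∧ aeval H Ct ≠ 0 ∧
      ((q : ℕ) : ModelField K₁ (M * q)) * aeval H Nt * W u / aeval H Ct ^ 2 - 1 ∈
        (vInf K₁ A₀ (M * q)).nonunits ∧
      ((q : ℕ) : ModelField K₁ (M * q)) * aeval H Nt * W u / aeval H Ct ^ 2 ∈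
        (vZero K₁ A₀ (M * q) W).nonunits ∧
      ((q : ℕ) : ModelField K₁ (M * q)) * aeval H Nt * W u / aeval H Ct ^ 2 ∈
        gaussClosure A₀ (ModelField K₁ (M * q)) ϖ x := by
  haveI : CharZero K₁ := charZero_of_injective_algebraMap (algebraMap ℚ K₁).injective
  set E := laurentBaseChange K₁ (modularFunctionFieldFull (M * q)) with hE
  obtain ⟨u, hu, hWu, hθ⟩ := exists_kappa_model E q W H Hq h₀ hh hH hHq hWH hWHq halg
  obtain ⟨Nt, hNt⟩ := Polynomial.map_surjective (Int.castRingHom (ZMod q))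
    (ZMod.intCast_surjective)
    (X ^ (q - 1) * C₁ ^ 2 + derivative P₁ * C₁ - P₁ * derivative C₁)
  obtain ⟨R, hR⟩ := core_series q hh d n Ψ₀ hK g P₁ C₁ hg0 hP hC Ct Nt hCt hNt
  have hinjK : Function.Injective (coeffMap (Int.castRingHom K₁)) :=
    Fermat.Agent.H67.coeffMap_injective_of_injective _ Int.cast_injective
  have hq0 : ((q : ℕ) : ModelField K₁ (M * q)) ≠ 0 := by
    exact_mod_cast hq.out.ne_zero
  have hu0 : u ≠ 0 := by
    rintro rfl
    rw [mul_zero] at hWu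
    exact zero_ne_one hWu
  have hWu0 : W u ≠ 0 := (map_ne_zero_iff W W.injective).mpr hu0
  have hWWu : W (W u) = u := by
    have h1 : W u = u⁻¹ := eq_inv_of_mul_eq_one_left hWu
    rw [h1, map_inv₀, h1, inv_inv]
  have hHq' : (Hq : LaurentSeries K₁) = coeffMap (Int.castRingHom K₁) (qExpand ℤ q h₀) := by
    rw [hHq, coeffMap_qExpand]
  -- `Ct ≠ 0`
  have hCt0 : Ct ≠ 0 := by
    rintro rfl
    rw [Polynomial.map_zero] at hCt
    exact hC₁ hCt.symm
  have hCH0 : aeval H Ct ≠ 0 := by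
    intro h0
    have h1 := coe_aeval_int E H h₀ hH Ct
    rw [h0] at h1
    have h2 : coeffMap (Int.castRingHom K₁) (aeval h₀ Ct) = 0 := h1.symm
    rw [← map_zero (coeffMap (Int.castRingHom K₁))] at h2
    exact hh.aeval_ne_zero hCt0 (hinjK h2)
  have hCHq0 : aeval Hq Ct ≠ 0 := by
    rw [← hWH, ← model_map_aeval_int K₁ W]
    exact (map_ne_zero_iff W W.injective).mpr hCH0
  set e : ModelField K₁ (M * q) :=
    ((q : ℕ) : ModelField K₁ (M * q)) * aeval H Nt * W u / aeval H Ct ^ 2 with he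
  -- the coercion of natural numbers
  have hcoeq : (((q : ℕ) : ModelField K₁ (M * q)) : LaurentSeries K₁) =
      coeffMap (Int.castRingHom K₁) ((q : ℤ) • (1 : LaurentSeries ℤ)) := by
    rw [map_zsmul, map_one]
    simp
  have hcoe_mul : ∀ a b : ModelField K₁ (M * q),
      ((a * b : ModelField K₁ (M * q)) : LaurentSeries K₁) =
        (a : LaurentSeries K₁) * (b : LaurentSeries K₁) := fun a b => rfl
  have hcoe_sub : ∀ a b : ModelField K₁ (M * q),
      ((a - b : ModelField K₁ (M * q)) : LaurentSeries K₁) =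
        (a : LaurentSeries K₁) - (b : LaurentSeries K₁) := fun a b => rfl
  have hcoe_pow : ∀ (a : ModelField K₁ (M * q)) (k : ℕ),
      ((a ^ k : ModelField K₁ (M * q)) : LaurentSeries K₁) =
        (a : LaurentSeries K₁) ^ k := fun a k => rfl
  -- `κ = u / q`
  obtain ⟨κ, hκ, huκ⟩ : ∃ κ : ModelField K₁ (M * q),
      (κ : LaurentSeries K₁) = coeffMap (Int.castRingHom K₁) (kappaZ q h₀) ∧
        u = ((q : ℕ) : ModelField K₁ (M * q)) * κ := by
    refine ⟨u * (((q : ℕ) : ModelField K₁ (M * q)))⁻¹, ?_, by field_simp⟩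
    have hqK : ((q : ℕ) : LaurentSeries K₁) ≠ 0 := by
      intro h
      apply hq0
      apply Subtype.ext
      exact h
    have h2 : ((u * (((q : ℕ) : ModelField K₁ (M * q)))⁻¹ : ModelField K₁ (M * q)) :
        LaurentSeries K₁) = (u : LaurentSeries K₁) * ((q : ℕ) : LaurentSeries K₁)⁻¹ := rfl
    rw [h2, hu, map_zsmul, zsmul_eq_mul, Int.cast_natCast, mul_comm, ← mul_assoc,
      inv_mul_cancel₀ hqK, one_mul]
  have hκ0 : κ ≠ 0 := by
    rintro rfl
    rw [mul_zero] at huκ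
    exact hu0 huκ
  have heC : e * aeval H Ct ^ 2 = ((q : ℕ) : ModelField K₁ (M * q)) * aeval H Nt * W u :=
    div_mul_cancel₀ _ (pow_ne_zero 2 hCH0)
  -- first component: `e - 1 ∈ 𝔪_∞`
  have h1 : e - 1 ∈ (vInf K₁ A₀ (M * q)).nonunits := by
    have hss : SSMaxInfty K₁ (M * q) A₀ ϖ (e - 1) := by
      refine ssMaxInfty_of_int K₁ (M * q) A₀ q hqA ϖ hϖ (e - 1)
        (aeval H Nt - aeval H Ct ^ 2 * κ) (aeval H Ct ^ 2 * κ)
        (-R) (kappaZ q h₀ * aeval h₀ Ct ^ 2) ?_ ?_ ?_ ?_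
      · rw [hcoe_sub, hcoe_mul, hcoe_pow, coe_aeval_int E H h₀ hH,
          coe_aeval_int E H h₀ hH, hκ, ← map_pow, ← map_mul, ← map_sub]
        congr 1
        rw [smul_neg, ← hR]
        ring
      · rw [hcoe_mul, hcoe_pow, coe_aeval_int E H h₀ hH, hκ, ← map_pow, ← map_mul, mul_comm]
      · exact redQ_kappa_mul_ne_zero q hh C₁ hC₁ Ct hCt
      · have h3 : e * (aeval H Ct ^ 2 * κ) = aeval H Nt := by
          have h4 : ((q : ℕ) : ModelField K₁ (M * q)) * (e * (aeval H Ct ^ 2 * κ)) =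
              ((q : ℕ) : ModelField K₁ (M * q)) * aeval H Nt := by
            calc ((q : ℕ) : ModelField K₁ (M * q)) * (e * (aeval H Ct ^ 2 * κ))
                = (e * aeval H Ct ^ 2) * (((q : ℕ) : ModelField K₁ (M * q)) * κ) := by ring
              _ = ((q : ℕ) : ModelField K₁ (M * q)) * aeval H Nt * (W u * u) := by
                rw [heC, ← huκ]; ring
              _ = ((q : ℕ) : ModelField K₁ (M * q)) * aeval H Nt := by rw [hWu, mul_one]
          exact mul_left_cancel₀ hq0 h4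
        rw [sub_mul, one_mul, h3]
    exact (Fermat.Agent.H41.SS.ssMaxInfty_iff hϖ (e - 1)).mp hss
  -- second component: `e ∈ 𝔪_0`
  have hWe : W e = ((q : ℕ) : ModelField K₁ (M * q)) * aeval Hq Nt * u / aeval Hq Ct ^ 2 := by
    rw [he, map_div₀, map_mul, map_mul, map_pow, map_natCast, hWWu,
      model_map_aeval_int K₁ W, model_map_aeval_int K₁ W, hWH]
  have h2 : e ∈ (vZero K₁ A₀ (M * q) W).nonunits := by
    rw [mem_nonunits_vZero_iff]
    have hss : SSMaxInfty K₁ (M * q) A₀ ϖ (W e) := by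
      refine ssMaxInfty_of_int K₁ (M * q) A₀ q hqA ϖ hϖ (W e)
        (((q : ℕ) : ModelField K₁ (M * q)) * aeval Hq Nt * u) (aeval Hq Ct ^ 2)
        (aeval (qExpand ℤ q h₀) Nt * ((q : ℤ) • kappaZ q h₀))
        (aeval (qExpand ℤ q h₀) Ct ^ 2) ?_ ?_ ?_ ?_
      · rw [hcoe_mul, hcoe_mul, hcoeq, coe_aeval_int E Hq _ hHq', hu, ← map_mul, ← map_mul]
        congr 1
        rw [smul_one_mul, smul_mul_assoc]
      · rw [hcoe_pow, coe_aeval_int E Hq _ hHq', ← map_pow]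
      · exact redQ_aeval_qExpand_ne_zero q hh C₁ hC₁ Ct hCt
      · rw [hWe]
        exact div_mul_cancel₀ _ (pow_ne_zero 2 hCHq0)
    exact (Fermat.Agent.H41.SS.ssMaxInfty_iff hϖ (W e)).mp hss
  -- `e ∈ C(j)`
  have h1' : e ∈ vInf K₁ A₀ (M * q) := by
    have h3 : e - 1 ∈ vInf K₁ A₀ (M * q) := (vInf K₁ A₀ (M * q)).nonunits_subset h1
    have h4 : e = (e - 1) + 1 := by ring
    rw [h4]
    exact (vInf K₁ A₀ (M * q)).add_mem _ _ h3 (vInf K₁ A₀ (M * q)).one_mem
  have h2' : e ∈ vZero K₁ A₀ (M * q) W := (vZero K₁ A₀ (M * q) W).nonunits_subset h2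
  exact ⟨u, Nt, hθ, hWu, hCH0, h1, h2,
    mem_gaussClosure_of_mem_vInf_vZero M q K₁ A₀ hqA ϖ hϖ x hx W hW hq.out hqM e h1' h2'⟩

end sep

end Fermat.Agent.H31.SS
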