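import Fermat.Agent.H1.ESD.T3Laurent

/-!
# P-SS / Hauptmodul data at level 9 (helper31): the Hauptmodul `H₉ = (η(z)/η(9z))³`

Level-9 twin of helper8's level-4 package (`Fermat.Agent.H8.SS.Haupt4*`), needed for `q = 2`.
No eta identity is used: everything comes from helper1's landed level-3 data
(`Fermat.Agent.H1.ESD.t3`, `t3_rel : j t₃³ = (t₃+27)(t₃+243)³`,
`t3_rel3 : j(q³) t₃ = (t₃+27)(t₃+3)³`).

With `x = t₃(q)`, `y = t₃(q³)`:

* `(x+27)(x+3)³ y³ - (y+27)(y+243)³ x = (x y - 729) Q₃(x,y)`,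
  `Q₃ = x³y² + 36x²y² + 729x²y + 270xy² + 26244xy + 531441x - y³`, and `x y - 729` is a unit
  of `k((q))`, so `Q₃(x, y) = 0` (`h9_modEq`);
* `H₉ := (1458 x + y (x² + 18 x + 27)) / ((x + 9) y - 243 x + 729)`; the denominator is
  `q⁻⁴ · unit`, so `H₉ = q⁻¹ · u`, `u ∈ ℤ⟦q⟧`, `u(0) = 1`, over every commutative ring;
* `h9_cube : H₉³ = t₃ (H₉² + 9 H₉ + 27)`, `h9_t3' : t₃(q³) = H₉ (H₉² + 9 H₉ + 27)`,
* `h9_j : j H₉⁹ (H₉² + 9 H₉ + 27) = (H₉ + 9)³ (H₉³ + 243 H₉² + 2187 H₉ + 6561)³`.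
-/

set_option autoImplicit false

noncomputable section

namespace Fermat.Agent.H31.SS

open HahnSeries ModularCurve
open Fermat.Agent.H1.ESD

/-! ### the formal power series -/

/-- numerator of `q H₉`, as a power series over `ℤ` -/
def h9NumU : PowerSeries ℤ :=
  1458 * PowerSeries.X ^ 4 * t3Num +
    ex3 t3Num * (t3Num ^ 2 + 18 * PowerSeries.X * t3Num + 27 * PowerSeries.X ^ 2)

/-- denominator, as a power series over `ℤ` -/
def h9DenU : PowerSeries ℤ :=
  (t3Num + 9 * PowerSeries.X) * ex3 t3Num - 243 * PowerSeries.X ^ 3 * t3Num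
    + 729 * PowerSeries.X ^ 4

theorem constantCoeff_ex3 (f : PowerSeries ℤ) :
    PowerSeries.constantCoeff (ex3 f) = PowerSeries.constantCoeff f := by
  rw [ex3, PowerSeries.constantCoeff_expand]

theorem constantCoeff_h9NumU : PowerSeries.constantCoeff h9NumU = 1 := by
  simp [h9NumU, constantCoeff_ex3, constantCoeff_t3Num]

theorem constantCoeff_h9DenU : PowerSeries.constantCoeff h9DenU = 1 := by
  simp [h9DenU, constantCoeff_ex3, constantCoeff_t3Num]

/-- the inverse of the denominator -/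
def h9DenUinv : PowerSeries ℤ := h9DenU.invOfUnit 1

theorem h9DenU_mul_inv : h9DenU * h9DenUinv = 1 :=
  PowerSeries.mul_invOfUnit _ _ (by
    show PowerSeries.constantCoeff h9DenU = ((1 : ℤˣ) : ℤ)
    rw [constantCoeff_h9DenU]; rfl)

theorem constantCoeff_h9DenUinv : PowerSeries.constantCoeff h9DenUinv = 1 := by
  have h := congrArg (PowerSeries.constantCoeff (R := ℤ)) h9DenU_mul_inv
  rwa [map_mul, constantCoeff_h9DenU, one_mul, map_one] at h

/-- `q H₉ ∈ ℤ⟦q⟧` -/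
def h9U : PowerSeries ℤ := h9NumU * h9DenUinv

theorem constantCoeff_h9U : PowerSeries.constantCoeff h9U = 1 := by
  rw [h9U, map_mul, constantCoeff_h9NumU, constantCoeff_h9DenUinv, one_mul]

/-! ### Laurent series over an arbitrary commutative ring -/

section Laurent

variable (k : Type*) [CommRing k]

/-- `t₃(q³)` -/
def t3c : LaurentSeries k := qExpand k 3 (t3 k)

/-- the Hauptmodul `H₉ = (η(z)/η(9z))³ = q⁻¹ - 3 + 5 q² - …` of `Γ₀(9)` as a formal Laurent
series over an arbitrary commutative ring. -/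
def h9S : LaurentSeries k := HahnSeries.single (-1 : ℤ) (1 : k) * phiL k h9U

/-- numerator `1458 x + y (x² + 18 x + 27)` -/
def h9Num : LaurentSeries k := 1458 * t3 k + t3c k * (t3 k ^ 2 + 18 * t3 k + 27)

/-- denominator `(x + 9) y - 243 x + 729` -/
def h9Den : LaurentSeries k := (t3 k + 9) * t3c k - 243 * t3 k + 729

theorem t3_eq_phiL : t3 k = HahnSeries.single (-1 : ℤ) (1 : k) * phiL k t3Num := by
  rw [t3_eq_single_mul]; rfl

theorem t3c_eq_phiL :
    t3c k = HahnSeries.single (-3 : ℤ) (1 : k) * phiL k (ex3 t3Num) := by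
  rw [t3c, t3_eq_phiL, map_mul, qExpand_phiL, qExpand_single]
  norm_num

theorem single_neg_mul_single (n : ℕ) :
    HahnSeries.single (-(n : ℤ)) (1 : k) * phiL k (PowerSeries.X ^ n) = 1 := by
  rw [map_pow, phiL_X, HahnSeries.single_pow, HahnSeries.single_mul_single]
  simp

/-- `q⁻ⁿ · u` is a unit of `k((q))` when `u ∈ ℤ⟦q⟧` has constant coefficient `1`. -/
theorem isUnit_single_mul_phiL (n : ℤ) (u : PowerSeries ℤ)
    (hu : PowerSeries.constantCoeff u = 1) :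
    IsUnit (HahnSeries.single n (1 : k) * phiL k u) := by
  have h1 : u * u.invOfUnit 1 = 1 :=
    PowerSeries.mul_invOfUnit _ _ (by
      show PowerSeries.constantCoeff u = ((1 : ℤˣ) : ℤ)
      rw [hu]; rfl)
  refine IsUnit.of_mul_eq_one (HahnSeries.single (-n) (1 : k) * phiL k (u.invOfUnit 1)) ?_
  calc HahnSeries.single n (1 : k) * phiL k u *
        (HahnSeries.single (-n) (1 : k) * phiL k (u.invOfUnit 1))
      = (HahnSeries.single n (1 : k) * HahnSeries.single (-n) (1 : k)) *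
          phiL k (u * u.invOfUnit 1) := by rw [map_mul]; ring
    _ = 1 := by
        rw [h1, (phiL k).map_one, mul_one, HahnSeries.single_mul_single]
        simp

/-- `q⁻¹ · q = 1` -/
theorem si_mul_s :
    HahnSeries.single (-1 : ℤ) (1 : k) * HahnSeries.single (1 : ℤ) (1 : k) = 1 := by
  rw [HahnSeries.single_mul_single]
  simp

theorem single_neg_three :
    HahnSeries.single (-3 : ℤ) (1 : k) = HahnSeries.single (-1 : ℤ) (1 : k) ^ 3 := by
  rw [HahnSeries.single_pow]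
  simp

theorem h9Den_eq : h9Den k = HahnSeries.single (-1 : ℤ) (1 : k) ^ 4 * phiL k h9DenU := by
  have hs := si_mul_s k
  rw [h9Den, t3c_eq_phiL, t3_eq_phiL, single_neg_three, h9DenU]
  simp only [map_add, map_sub, map_mul, map_pow, phiL_X, map_ofNat]
  linear_combination
    (-(9 * HahnSeries.single (-1 : ℤ) (1 : k) ^ 3 * phiL k (ex3 t3Num))
      + 243 * HahnSeries.single (-1 : ℤ) (1 : k) * phiL k t3Num
        * (1 + HahnSeries.single (-1 : ℤ) (1 : k) * HahnSeries.single (1 : ℤ) (1 : k)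
          + (HahnSeries.single (-1 : ℤ) (1 : k) * HahnSeries.single (1 : ℤ) (1 : k)) ^ 2)
      - 729 * (1 + HahnSeries.single (-1 : ℤ) (1 : k) * HahnSeries.single (1 : ℤ) (1 : k))
          * (1 + (HahnSeries.single (-1 : ℤ) (1 : k) * HahnSeries.single (1 : ℤ) (1 : k)) ^ 2))
      * hs

theorem h9Num_eq : h9Num k = HahnSeries.single (-1 : ℤ) (1 : k) ^ 5 * phiL k h9NumU := by
  have hs := si_mul_s k
  rw [h9Num, t3c_eq_phiL, t3_eq_phiL, single_neg_three, h9NumU]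
  simp only [map_add, map_mul, map_pow, phiL_X, map_ofNat]
  linear_combination
    (-(1458 * HahnSeries.single (-1 : ℤ) (1 : k) * phiL k t3Num
        * (1 + HahnSeries.single (-1 : ℤ) (1 : k) * HahnSeries.single (1 : ℤ) (1 : k))
        * (1 + (HahnSeries.single (-1 : ℤ) (1 : k) * HahnSeries.single (1 : ℤ) (1 : k)) ^ 2))
      - HahnSeries.single (-1 : ℤ) (1 : k) ^ 3 * phiL k (ex3 t3Num)
        * (18 * HahnSeries.single (-1 : ℤ) (1 : k) * phiL k t3Num
          + 27 * (1 + HahnSeries.single (-1 : ℤ) (1 : k) * HahnSeries.single (1 : ℤ) (1 : k))))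
      * hs

theorem single_neg_one_pow (n : ℕ) :
    HahnSeries.single (-1 : ℤ) (1 : k) ^ n = HahnSeries.single (-(n : ℤ)) (1 : k) := by
  rw [HahnSeries.single_pow]
  simp

theorem isUnit_h9Den : IsUnit (h9Den k) := by
  rw [h9Den_eq, single_neg_one_pow]
  exact isUnit_single_mul_phiL k _ _ constantCoeff_h9DenU

/-- `H₉ = numerator / denominator` -/
theorem h9Den_mul_h9S : h9Den k * h9S k = h9Num k := by
  rw [h9Den_eq, h9Num_eq, h9S, h9U, map_mul]
  have h : phiL k h9DenU * phiL k h9DenUinv = 1 := by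
    rw [← map_mul, h9DenU_mul_inv, map_one]
  linear_combination
    (HahnSeries.single (-1 : ℤ) (1 : k) ^ 5 * phiL k h9NumU) * h

/-- the level-3 modular equation for `j(q³)`, at `q³`: `j(q³) y³ = (y + 27)(y + 243)³`. -/
theorem t3c_rel :
    qExpand k 3 (jqModC k) * t3c k ^ 3 = (t3c k + 27) * (t3c k + 243) ^ 3 := by
  have h := congrArg (qExpand k 3) (t3_rel k)
  simpa only [map_mul, map_add, map_pow, map_ofNat, t3c] using h

/-- `x y - 729 = q⁻⁴ · unit` -/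
theorem isUnit_mul_sub : IsUnit (t3 k * t3c k - 729) := by
  have hs := si_mul_s k
  have h : t3 k * t3c k - 729 = HahnSeries.single (-(4 : ℕ) : ℤ) (1 : k) *
      phiL k (t3Num * ex3 t3Num - 729 * PowerSeries.X ^ 4) := by
    rw [← single_neg_one_pow, t3c_eq_phiL, t3_eq_phiL, single_neg_three]
    simp only [map_sub, map_mul, map_pow, phiL_X, map_ofNat]
    linear_combination
      (729 * (1 + HahnSeries.single (-1 : ℤ) (1 : k) * HahnSeries.single (1 : ℤ) (1 : k))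
          * (1 + (HahnSeries.single (-1 : ℤ) (1 : k) * HahnSeries.single (1 : ℤ) (1 : k)) ^ 2))
        * hs
  rw [h]
  refine isUnit_single_mul_phiL k _ _ ?_
  simp [constantCoeff_ex3, constantCoeff_t3Num]

/-- **the modular equation of level 3 for `t₃`**: `Q₃(t₃(q), t₃(q³)) = 0`. -/
theorem h9_modEq :
    t3 k ^ 3 * t3c k ^ 2 + 36 * t3 k ^ 2 * t3c k ^ 2 + 729 * t3 k ^ 2 * t3c k
      + 270 * t3 k * t3c k ^ 2 + 26244 * t3 k * t3c k + 531441 * t3 k - t3c k ^ 3 = 0 := by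
  have h1 := t3_rel3 k
  have h2 := t3c_rel k
  refine (isUnit_mul_sub k).mul_right_eq_zero.1 ?_
  linear_combination (-(t3c k ^ 3)) * h1 + (t3 k) * h2

/-- `H₉³ = t₃ (H₉² + 9 H₉ + 27)` -/
theorem h9_cube : h9S k ^ 3 = t3 k * (h9S k ^ 2 + 9 * h9S k + 27) := by
  have hQ := h9_modEq k
  have hH := h9Den_mul_h9S k
  rw [h9Den, h9Num] at hH
  have hu : IsUnit (h9Den k ^ 3) := (isUnit_h9Den k).pow 3
  rw [← sub_eq_zero]
  refine hu.mul_right_eq_zero.1 ?_
  rw [h9Den]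
  linear_combination
    (243 * t3 k ^ 3 + 5103 * t3 k ^ 2 + 6561 * t3 k - 19683) * hQ
    + ((((t3 k + 9) * t3c k - 243 * t3 k + 729) * h9S k) ^ 2
        + (((t3 k + 9) * t3c k - 243 * t3 k + 729) * h9S k)
            * (1458 * t3 k + t3c k * (t3 k ^ 2 + 18 * t3 k + 27))
        + (1458 * t3 k + t3c k * (t3 k ^ 2 + 18 * t3 k + 27)) ^ 2
        - t3 k * ((t3 k + 9) * t3c k - 243 * t3 k + 729)
            * ((((t3 k + 9) * t3c k - 243 * t3 k + 729) * h9S k)
              + (1458 * t3 k + t3c k * (t3 k ^ 2 + 18 * t3 k + 27)))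
        - 9 * t3 k * ((t3 k + 9) * t3c k - 243 * t3 k + 729) ^ 2) * hH

/-- `t₃(q³) = H₉ (H₉² + 9 H₉ + 27)` -/
theorem h9_t3c : t3c k = h9S k * (h9S k ^ 2 + 9 * h9S k + 27) := by
  have hQ := h9_modEq k
  have hH := h9Den_mul_h9S k
  rw [h9Den, h9Num] at hH
  have hu : IsUnit (h9Den k ^ 3) := (isUnit_h9Den k).pow 3
  rw [← sub_eq_zero]
  refine hu.mul_right_eq_zero.1 ?_
  rw [h9Den]
  linear_combination
    (-(t3 k ^ 3 * t3c k) - 27 * t3 k ^ 2 * t3c k - 1458 * t3 k ^ 2 - 243 * t3 k * t3c k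
        - 729 * t3c k - 39366) * hQ
    - ((((t3 k + 9) * t3c k - 243 * t3 k + 729) * h9S k) ^ 2
        + (((t3 k + 9) * t3c k - 243 * t3 k + 729) * h9S k)
            * (1458 * t3 k + t3c k * (t3 k ^ 2 + 18 * t3 k + 27))
        + (1458 * t3 k + t3c k * (t3 k ^ 2 + 18 * t3 k + 27)) ^ 2
        + 9 * ((t3 k + 9) * t3c k - 243 * t3 k + 729)
            * ((((t3 k + 9) * t3c k - 243 * t3 k + 729) * h9S k)
              + (1458 * t3 k + t3c k * (t3 k ^ 2 + 18 * t3 k + 27)))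
        + 27 * ((t3 k + 9) * t3c k - 243 * t3 k + 729) ^ 2) * hH

/-- `t₃(q) t₃(q³) = H₉⁴` -/
theorem h9_pow_four : h9S k ^ 4 = t3 k * t3c k := by
  have h1 := h9_cube k
  have h2 := h9_t3c k
  rw [h2]
  linear_combination (h9S k) * h1

/-- **`j` as a rational function of `H₉`**:
`j H₉⁹ (H₉² + 9 H₉ + 27) = (H₉ + 9)³ (H₉³ + 243 H₉² + 2187 H₉ + 6561)³`. -/
theorem h9_j :
    jqModC k * h9S k ^ 9 * (h9S k ^ 2 + 9 * h9S k + 27) =
      (h9S k + 9) ^ 3 * (h9S k ^ 3 + 243 * h9S k ^ 2 + 2187 * h9S k + 6561) ^ 3 := by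
  have hc := h9_cube k
  have hr := t3_rel k
  calc jqModC k * h9S k ^ 9 * (h9S k ^ 2 + 9 * h9S k + 27)
      = jqModC k * (h9S k ^ 3) ^ 3 * (h9S k ^ 2 + 9 * h9S k + 27) := by ring
    _ = (jqModC k * t3 k ^ 3) * (h9S k ^ 2 + 9 * h9S k + 27) ^ 4 := by rw [hc]; ring
    _ = (t3 k * (h9S k ^ 2 + 9 * h9S k + 27) + 27 * (h9S k ^ 2 + 9 * h9S k + 27)) *
          (t3 k * (h9S k ^ 2 + 9 * h9S k + 27) + 243 * (h9S k ^ 2 + 9 * h9S k + 27)) ^ 3 := by
        rw [hr]; ring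
    _ = (h9S k ^ 3 + 27 * (h9S k ^ 2 + 9 * h9S k + 27)) *
          (h9S k ^ 3 + 243 * (h9S k ^ 2 + 9 * h9S k + 27)) ^ 3 := by rw [← hc]
    _ = _ := by ring

/-- **`j(q³)` as a rational function of `H₉`**:
`j(q³) H₉³ (H₉² + 9 H₉ + 27)³ = (H₉ + 9)³ (H₉³ + 3 H₉² + 27 H₉ + 81)³`. -/
theorem h9_j3 :
    qExpand k 3 (jqModC k) * h9S k ^ 3 * (h9S k ^ 2 + 9 * h9S k + 27) ^ 3 =
      (h9S k + 9) ^ 3 * (h9S k ^ 3 + 3 * h9S k ^ 2 + 27 * h9S k + 81) ^ 3 := by
  have hc := h9_cube k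
  have hr := t3_rel3 k
  calc qExpand k 3 (jqModC k) * h9S k ^ 3 * (h9S k ^ 2 + 9 * h9S k + 27) ^ 3
      = (qExpand k 3 (jqModC k) * t3 k) * (h9S k ^ 2 + 9 * h9S k + 27) ^ 4 := by rw [hc]; ring
    _ = (t3 k * (h9S k ^ 2 + 9 * h9S k + 27) + 27 * (h9S k ^ 2 + 9 * h9S k + 27)) *
          (t3 k * (h9S k ^ 2 + 9 * h9S k + 27) + 3 * (h9S k ^ 2 + 9 * h9S k + 27)) ^ 3 := by
        rw [hr]; ring
    _ = (h9S k ^ 3 + 27 * (h9S k ^ 2 + 9 * h9S k + 27)) *
          (h9S k ^ 3 + 3 * (h9S k ^ 2 + 9 * h9S k + 27)) ^ 3 := by rw [← hc]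
    _ = _ := by ring

/-- the level-3 modular equation at `q³`: `j(q⁹) y = (y + 27)(y + 3)³`. -/
theorem t3c_rel3 :
    qExpand k 9 (jqModC k) * t3c k = (t3c k + 27) * (t3c k + 3) ^ 3 := by
  have h := congrArg (qExpand k 3) (t3_rel3 k)
  rw [map_mul, qExpand_qExpand] at h
  simpa only [map_mul, map_add, map_pow, map_ofNat, t3c] using h

/-- **`j(q⁹)` as a rational function of `H₉`**:
`j(q⁹) H₉ (H₉² + 9 H₉ + 27) = (H₉ + 3)³ (H₉³ + 9 H₉² + 27 H₉ + 3)³`. -/
theorem h9_j9 :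
    qExpand k 9 (jqModC k) * h9S k * (h9S k ^ 2 + 9 * h9S k + 27) =
      (h9S k + 3) ^ 3 * (h9S k ^ 3 + 9 * h9S k ^ 2 + 27 * h9S k + 3) ^ 3 := by
  have hc := h9_t3c k
  have hr := t3c_rel3 k
  calc qExpand k 9 (jqModC k) * h9S k * (h9S k ^ 2 + 9 * h9S k + 27)
      = qExpand k 9 (jqModC k) * (h9S k * (h9S k ^ 2 + 9 * h9S k + 27)) := by ring
    _ = qExpand k 9 (jqModC k) * t3c k := by rw [← hc]
    _ = (t3c k + 27) * (t3c k + 3) ^ 3 := hr
    _ = (h9S k * (h9S k ^ 2 + 9 * h9S k + 27) + 27) *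
          (h9S k * (h9S k ^ 2 + 9 * h9S k + 27) + 3) ^ 3 := by rw [← hc]
    _ = _ := by ring

/-! ### integrality and base change -/

theorem h9S_eq_single_mul : h9S k = HahnSeries.single (-1 : ℤ) (1 : k) *
    HahnSeries.ofPowerSeries ℤ k (h9U.map (Int.castRingHom k)) := rfl

theorem h9S_coeff (n : ℤ) :
    (h9S k).coeff n = (HahnSeries.ofPowerSeries ℤ k (h9U.map (Int.castRingHom k))).coeff (n + 1) := by
  rw [h9S_eq_single_mul]
  have h : n = (n + 1) + (-1) := by ring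
  conv_lhs => rw [h]
  rw [HahnSeries.coeff_single_mul_add, one_mul]

theorem h9S_coeff_neg_one : (h9S k).coeff (-1) = 1 := by
  rw [h9S_coeff]
  have h : ((-1 : ℤ) + 1) = ((0 : ℕ) : ℤ) := by norm_num
  rw [h, HahnSeries.ofPowerSeries_apply_coeff, PowerSeries.coeff_map,
    PowerSeries.coeff_zero_eq_constantCoeff_apply, constantCoeff_h9U]
  simp

theorem h9S_coeff_of_lt {n : ℤ} (hn : n < -1) : (h9S k).coeff n = 0 := by
  rw [h9S_coeff]
  exact ofPowerSeries_coeff_of_neg _ (by omega)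

theorem h9S_ne_zero [Nontrivial k] : h9S k ≠ 0 := by
  intro h
  have h1 := h9S_coeff_neg_one k
  rw [h] at h1
  simp at h1

theorem h9S_order [Nontrivial k] : (h9S k).order = -1 := by
  refine le_antisymm ?_ ?_
  · refine HahnSeries.order_le_of_coeff_ne_zero ?_
    rw [h9S_coeff_neg_one]
    exact one_ne_zero
  · by_contra hlt
    rw [not_le] at hlt
    exact h9S_ne_zero k (HahnSeries.coeff_order_eq_zero.1 (h9S_coeff_of_lt k hlt))

variable {k}

/-- `H₉` is compatible with every change of coefficient ring. -/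
theorem coeffMap_h9S {k' : Type*} [CommRing k'] (f : k →+* k') :
    coeffMap f (h9S k) = h9S k' := by
  rw [h9S, h9S, map_mul, coeffMap_phiL, coeffMap_single, map_one]

theorem coeffMap_t3c {k' : Type*} [CommRing k'] (f : k →+* k') :
    coeffMap f (t3c k) = t3c k' := by
  rw [t3c_eq_phiL, t3c_eq_phiL, map_mul, coeffMap_phiL, coeffMap_single, map_one]

end Laurent

end Fermat.Agent.H31.SS
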