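import Fermat.Agent.H31.SS.Haupt9
import Fermat.Agent.H1.ESD.T3Rat
import Fermat.Prelude.Def_ModularCurve_ArithmeticGalois

/-!
# P-SS / Hauptmodul data at level 9 (helper31): membership and `F₉ = k(H₉)`

* `qExpand_mem_fullC` : `q ↦ q^d` maps the function field of level `M` into the one of level
  `d M` (any field `k`);
* `h9S_mem` : `H₉ ∈ F` for every intermediate field containing `t₃(q)` and `t₃(q³)`;
* `h9S_mem_fullC` : `H₉ ∈ k(X₀(N))` for `9 ∣ N` (`k` any field with `3 ≠ 0`),
  `h9S_rat_mem_full`, `h9S_mem_bar`, `h9Bar N`.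
-/

set_option autoImplicit false

noncomputable section

namespace Fermat.Agent.H31.SS

open HahnSeries ModularCurve IntermediateField
open Fermat.Agent.H1.ESD

section field

variable (k : Type*) [Field k]

/-- `q ↦ q^d` maps the function field of level `M` into the function field of level `d M`. -/
theorem qExpand_mem_fullC (d M : ℕ) [NeZero d] [NeZero M] {x : LaurentSeries k}
    (hx : x ∈ modularFunctionFieldFullC k M) :
    qExpand k d x ∈ modularFunctionFieldFullC k (d * M) := by
  have h : modularFunctionFieldFullC k M ≤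
      (modularFunctionFieldFullC k (d * M)).comap (qExpandAlgHomC k d) := by
    rw [modularFunctionFieldFullC, adjoin_le_iff]
    rintro y ⟨e, hne, hdvd, rfl⟩
    have := hne
    show qExpand k d (qExpand k e (jqModC k)) ∈ modularFunctionFieldFullC k (d * M)
    rw [qExpand_qExpand]
    exact jqModCd_mem_full k (d * M) (Nat.mul_dvd_mul_left d hdvd)
  exact h hx

theorem h9Den_ne_zero : h9Den k ≠ 0 := (isUnit_h9Den k).ne_zero

theorem h9S_eq_div : h9S k = h9Num k / h9Den k := by
  rw [eq_div_iff (h9Den_ne_zero k), mul_comm]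
  exact h9Den_mul_h9S k

/-- `H₉` lies in every intermediate field containing `t₃(q)` and `t₃(q³)`. -/
theorem h9S_mem (F : IntermediateField k (LaurentSeries k)) (hx : t3 k ∈ F)
    (hy : t3c k ∈ F) : h9S k ∈ F := by
  have hn : ∀ (n : ℕ) [n.AtLeastTwo], (OfNat.ofNat n : LaurentSeries k) ∈ F := by
    intro n _
    have h : (OfNat.ofNat n : LaurentSeries k) = algebraMap k (LaurentSeries k) (OfNat.ofNat n) :=
      (map_ofNat (algebraMap k (LaurentSeries k)) n).symm
    rw [h]
    exact F.algebraMap_mem _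
  rw [h9S_eq_div, h9Num, h9Den]
  refine div_mem ?_ ?_
  · exact add_mem (mul_mem (hn 1458) hx)
      (mul_mem hy (add_mem (add_mem (pow_mem hx 2) (mul_mem (hn 18) hx)) (hn 27)))
  · exact add_mem (sub_mem (mul_mem (add_mem hx (hn 9)) hy) (mul_mem (hn 243) hx)) (hn 729)

/-- membership of `H₉` in the function field of level `N`, `9 ∣ N`, from the membership of
`t₃` at level 3. -/
theorem h9S_mem_fullC_of_t3 (h3 : t3 k ∈ modularFunctionFieldFullC k 3) (N : ℕ) [NeZero N]
    (hN : 9 ∣ N) : h9S k ∈ modularFunctionFieldFullC k N := by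
  have h3N : 3 ∣ N := Dvd.dvd.trans (by norm_num) hN
  refine h9S_mem k _ (full_degeneracyC_le k h3N h3) ?_
  have h9 : t3c k ∈ modularFunctionFieldFullC k (3 * 3) := qExpand_mem_fullC k 3 3 h3
  exact full_degeneracyC_le k (by simpa using hN) h9

end field

section anyfield

variable (k : Type) [Field k]

/-- **membership** of the Hauptmodul of level 9 in the function field of `X₀(N)`, `9 ∣ N`,
over any field with `3 ≠ 0`. -/
theorem h9S_mem_fullC (h3 : (3 : k) ≠ 0) (N : ℕ) [NeZero N] (hN : 9 ∣ N) :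
    h9S k ∈ modularFunctionFieldFullC k N :=
  h9S_mem_fullC_of_t3 k (t3_mem_fullC_gen k h3 3 dvd_rfl) N hN

end anyfield

/-- **membership over `ℚ`** -/
theorem h9S_rat_mem_full (N : ℕ) [NeZero N] (hN : 9 ∣ N) :
    h9S ℚ ∈ modularFunctionFieldFull N := by
  rw [← modularFunctionFieldFullC_rat]
  exact h9S_mem_fullC ℚ (by norm_num) N hN

/-- `coeffEmb L (H₉ over ℚ) = H₉ over L` -/
theorem coeffEmb_h9S (L : Type*) [Field L] [Algebra ℚ L] : coeffEmb L (h9S ℚ) = h9S L :=
  coeffMap_h9S _

/-- **membership** of the Hauptmodul of level 9 in `ℚ̄(X₀(N))`, `9 ∣ N`. -/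
theorem h9S_mem_bar (N : ℕ) [NeZero N] (hN : 9 ∣ N) :
    h9S (AlgebraicClosure ℚ) ∈ modularFunctionFieldBar N := by
  have h2 := coeffEmb_mem_laurentBaseChange (AlgebraicClosure ℚ) (h9S_rat_mem_full N hN)
  rwa [coeffEmb_h9S] at h2

/-- the Hauptmodul of level 9 as an element of `ℚ̄(X₀(N))`, `9 ∣ N` -/
def h9Bar (N : ℕ) [NeZero N] (hN : 9 ∣ N) : ↥(modularFunctionFieldBar N) :=
  ⟨h9S (AlgebraicClosure ℚ), h9S_mem_bar N hN⟩

@[simp] theorem h9Bar_coe (N : ℕ) [NeZero N] (hN : 9 ∣ N) :
    ((h9Bar N hN : ↥(modularFunctionFieldBar N)) : LaurentSeries (AlgebraicClosure ℚ)) =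
      h9S (AlgebraicClosure ℚ) := rfl

end Fermat.Agent.H31.SS
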