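/-
P-SS, LEVEL-9 TWINS (helper31), twin of row 961 (SS-HM-UNR): the chart `H` (Hauptmodul of
level 9) of the model field of level `N`, `9 ∣ N`, is unramified off the cusp values `0` and the
two roots of `X² + 9 X + 27` (which are in general not rational over `K₁`).

* `simple_zero_of_place_above` : generic; if all zeros of `ι x - a` (at the places above, over
  the roots `a` of an irreducible `h`) are simple, then `ord_v h(x) = 1`.
* `unramifiedNear_h9_generic` : for any field `E` over `K0 = Frac A` with a comparison map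
  `ι : E → modularFunctionFieldBar N`, `ι x = h9Bar`, every disc `(ϖ, g)` containing neither
  `X` nor `X² + 9 X + 27` is unramified.
* `modelUnramified_h9` : `Fermat.Agent.H31.SS.ModelUnramifiedH9Statement N`.
-/
import Fermat.Agent.H31.SS.CrossInterfaces9
import Fermat.Agent.H2.KLBRModelT

set_option autoImplicit false
set_option synthInstance.maxHeartbeats 400000
set_option linter.style.haveILetI false
set_option linter.unusedSectionVars false

noncomputable section

open AlgebraicCurve IntermediateField Polynomial ModularCurve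

namespace Fermat.Agent.H31.SS

open Fermat.Agent.H23 Fermat.Agent.H22.KL Fermat.Agent.H27.ESD Fermat.Agent.H2

section simple

variable {K0 L E0 F : Type} [Field K0] [Field L] [Field E0] [Field F]
  [Algebra K0 E0] [Algebra L F] [Algebra K0 L] [IsAlgClosed L] [CharZero L]
  [Algebra.IsAlgebraic K0 L]

/-- **Simple zeros descend.**  `v` a place of `E0 / K0`, `h ∈ K0[X]` irreducible with
`ord_v h(x) > 0`; if at every place `w` of `F / L` every zero of `ι x - a` is simple, `a` a
point below `w` which is not excluded by `bad`, and the points below the places above `v` are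
not `bad`, then `ord_v h(x) = 1`. -/
theorem simple_zero_of_place_above (ι : E0 →+* F)
    (hι : ∀ a : K0, ι (algebraMap K0 E0 a) = algebraMap L F (algebraMap K0 L a))
    (x : E0) (hx : Transcendental L (ι x)) (hfin : FiniteDimensional L⟮ι x⟯ F)
    (v : Place K0 E0) (h : K0[X]) (hirr : Irreducible h) (hv : 0 < v.ord (aeval x h))
    (hsimple : ∀ (w : Place L F) (a : L),
      (∀ f : E0, 0 < w.ord (ι f) → 0 < v.ord f) →
      0 < w.ord (ι x - algebraMap L F a) → w.ord (ι x - algebraMap L F a) = 1) :
    v.ord (aeval x h) = 1 := by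
  obtain ⟨w, e', he', hw⟩ := klbr_place_above ι hι (ι x) hx hfin v
  have hpos : ∀ f : E0, 0 < v.ord f ↔ 0 < w.ord (ι f) := by
    intro f
    rw [hw]
    constructor
    · intro h; positivity
    · intro h
      by_contra hc
      have : (e' : ℤ) * v.ord f ≤ 0 :=
        mul_nonpos_of_nonneg_of_nonpos (by positivity) (not_lt.mp hc)
      omega
  have : CharZero K0 := (algebraMap K0 L).charZero
  set hbar : L[X] := h.map (algebraMap K0 L) with hbar_def
  have hιh : ι (aeval x h) = aeval (ι x) hbar := by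
    rw [aeval_def, hom_eval₂, aeval_def, hbar_def, eval₂_map]
    congr 1
    ext a
    exact hι a
  have hbar0 : hbar ≠ 0 := by
    rw [hbar_def, Ne, Polynomial.map_eq_zero]
    exact hirr.ne_zero
  have hwpos : 0 < w.ord (aeval (ι x) hbar) := by
    rw [← hιh]
    exact (hpos _).mp hv
  -- `w` is not a pole of `ι x`
  have hnp : 0 ≤ w.ord (ι x) := by
    by_contra hc
    have := klbr_ord_aeval_nonpos_of_pole w (not_le.mp hc) hbar hbar0
    omega
  -- the point below `w`
  obtain ⟨a, ha⟩ := Fermat.Agent.H29.place_exists_root_of_ord_pos w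
    (Fermat.Agent.H23.mem_of_ord_nonneg w hnp) hbar.natDegree hbar rfl hbar0 (Or.inr hwpos)
  have ha' : 0 < w.ord (ι x - algebraMap L F a) := by
    rcases ha with ha | ha
    · exact absurd (ha ▸ isAlgebraic_algebraMap a) hx
    · exact ha
  have hroot : hbar.IsRoot a := klbr_root_of_ord_pos w ha' hbar hwpos
  have hone : w.ord (ι x - algebraMap L F a) = 1 :=
    hsimple w a (fun f hf => (hpos f).mpr hf) ha'
  -- `a` is a simple root
  have hsep : hbar.Separable := hirr.separable.map
  obtain ⟨g, hg⟩ : (X - C a) ∣ hbar := dvd_iff_isRoot.mpr hroot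
  have hga : g.eval a ≠ 0 := by
    intro hga
    obtain ⟨g', hg'⟩ : (X - C a) ∣ g := dvd_iff_isRoot.mpr hga
    have hsq : (X - C a) * (X - C a) ∣ hbar := ⟨g', by rw [hg, hg']; ring⟩
    have hunit := hsep.squarefree (X - C a) hsq
    exact not_isUnit_X_sub_C a hunit
  obtain ⟨hg0, hgord⟩ := klbr_ord_aeval_eq_zero w ha' g hga
  have hval : aeval (ι x) hbar = (ι x - algebraMap L F a) * aeval (ι x) g := by
    rw [hg]
    simp
  have hxa0 : ι x - algebraMap L F a ≠ 0 := by
    intro h0
    rw [h0] at ha'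
    simp at ha'
  have htot : w.ord (aeval (ι x) hbar) = 1 := by
    rw [hval, w.ord_mul hxa0 hg0, hone, hgord, add_zero]
  rw [← hιh, hw] at htot
  have h1 : v.ord (aeval x h) ∣ 1 := Dvd.intro_left _ htot
  exact Int.eq_one_of_dvd_one hv.le h1

end simple

section generic

variable (N : ℕ) [NeZero N]

local notation "Kbar" => AlgebraicClosure ℚ
set_option quotPrecheck false in
local notation "FN" => ↥(ModularCurve.modularFunctionFieldBar N)

variable {K0 E : Type} [Field K0] [Field E] [Algebra K0 E] [Algebra K0 Kbar]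

variable {A : Type} [CommRing A] [IsDomain A]
  [Algebra A K0] [IsFractionRing A K0] [Algebra A E] [IsScalarTower A K0 E]
  [Algebra.IsAlgebraic K0 Kbar]

/-- **HM-UNR, level 9, generic form.** -/
theorem unramifiedNear_h9_generic (h9 : 9 ∣ N) (ϖ : A) (ι : E →+* FN)
    (hι : ∀ a : K0, ι (algebraMap K0 E a) = algebraMap Kbar FN (algebraMap K0 Kbar a))
    (x : E) [Algebra.IsAlgebraic K0⟮x⟯ E] (hx : ι x = h9Bar N h9)
    (g : A[X])
    (hg0 : ¬ ∃ p r : A[X], (X : A[X]) = C ϖ * p + g * r)
    (hgQ : ¬ ∃ p r : A[X], (X ^ 2 + C 9 * X + C 27 : A[X]) = C ϖ * p + g * r) :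
    UnramifiedNear A E ϖ x g := by
  have httr : Transcendental Kbar (ι x) := by
    rw [hx]
    exact h9Bar_transcendental N h9
  have hfin : FiniteDimensional Kbar⟮ι x⟯ FN := by
    rw [hx]
    exact h9Bar_finiteDimensional N h9
  have hxtr : Transcendental K0 x := by
    rintro ⟨p, hp0, hp⟩
    apply httr
    refine ⟨p.map (algebraMap K0 Kbar), ?_, ?_⟩
    · rwa [Ne, Polynomial.map_eq_zero]
    · have h := congrArg ι hp
      rw [map_zero, aeval_def, hom_eval₂] at h
      have hcomp : (algebraMap Kbar FN).comp (algebraMap K0 Kbar) =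
          ι.comp (algebraMap K0 E) := RingHom.ext fun a => (hι a).symm
      rw [aeval_def, eval₂_map, hcomp, h]
  intro v hfinv hdisc
  set P : Place K0 E := placeOfIsPlace (K0 := K0) v hfinv.1 with hP
  obtain ⟨h, hirr, hpos⟩ := klbr_exists_irreducible_pos P x hfinv.2 hxtr
  -- the quadratic factor over `A`, in `E`
  have hQE : aeval x (X ^ 2 + C 9 * X + C 27 : A[X]) = x ^ 2 + 9 * x + 27 := by
    simp only [map_add, map_mul, map_pow, aeval_X, aeval_C, map_ofNat]
  have hιQ : ι (x ^ 2 + 9 * x + 27) = ι x ^ 2 + 9 * ι x + 27 := by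
    simp only [map_add, map_mul, map_pow, map_ofNat]
  have hone : P.ord (aeval x h) = 1 := by
    refine simple_zero_of_place_above ι hι x httr hfin P h hirr hpos ?_
    intro w a hdown ha
    rw [hx] at ha ⊢
    refine ord_h9Bar_sub_eq_one N h9 w ?_ ?_ ha
    · -- `a ≠ 0`
      rintro rfl
      rw [map_zero, sub_zero, ← hx] at ha
      have h1 : 0 < P.ord x := hdown x ha
      exact hg0 (hdisc X (by
        rw [aeval_X]
        exact (klbr_mem_nonunits_iff P x).mpr (Or.inr h1)))
    · -- `a² + 9 a + 27 ≠ 0`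
      intro ha0
      have h2 : 0 < w.ord (h9Bar N h9 ^ 2 + 9 * h9Bar N h9 + 27) := by
        have h3 := klbr_aeval_sub w ha (X ^ 2 + C 9 * X + C 27 : Kbar[X])
        have h4 : (X ^ 2 + C 9 * X + C 27 : Kbar[X]).eval a = 0 := by
          simp only [eval_add, eval_mul, eval_pow, eval_X, eval_C]
          exact ha0
        have h5 : aeval (h9Bar N h9) (X ^ 2 + C 9 * X + C 27 : Kbar[X]) =
            h9Bar N h9 ^ 2 + 9 * h9Bar N h9 + 27 := by
          simp only [map_add, map_mul, map_pow, aeval_X, aeval_C, map_ofNat]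
        rw [h4, map_zero, sub_zero, h5] at h3
        rcases h3 with h3 | h3
        · exact absurd h3 (h9Bar_quad_ne_zero N h9)
        · exact h3
      rw [← hx, ← hιQ] at h2
      have h1 : 0 < P.ord (x ^ 2 + 9 * x + 27) := hdown _ h2
      exact hgQ (hdisc (X ^ 2 + C 9 * X + C 27) (by
        rw [hQE]
        exact (klbr_mem_nonunits_iff P _).mpr (Or.inr h1)))
  obtain ⟨h', hh'⟩ := klbr_exists_integral_uniformiser (A := A) P x h hone
  exact ⟨_, klbr_aeval_mem_chartField x x (klbr_self_mem_chartField x) h',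
    klbr_isUniformiser_of_ord P _ hh'⟩

end generic

section model

variable (N : ℕ) [NeZero N]

local notation "Kbar" => AlgebraicClosure ℚ
set_option quotPrecheck false in
local notation "FN" => ↥(ModularCurve.modularFunctionFieldBar N)

/-- **HM-UNR, level 9** (twin of row 961): the chart `H` of the model field of level `N`,
`9 ∣ N`, is unramified off the cusp values (`0` and the roots of `X² + 9 X + 27`). -/
theorem modelUnramified_h9 (h9 : 9 ∣ N) : ModelUnramifiedH9Statement N := by
  intro K₁ _ _ _ A₀ _ _ _ _ _ _ _ ϖ _ x hx g _ _ hg0 hgQ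
  -- an embedding of `K₁` into `ℚ̄`
  haveI : Algebra.IsAlgebraic ℚ K₁ := Algebra.IsAlgebraic.of_finite ℚ K₁
  let φ : K₁ →ₐ[ℚ] AlgebraicClosure ℚ := IsAlgClosed.lift
  letI algK : Algebra K₁ (AlgebraicClosure ℚ) := φ.toRingHom.toAlgebra
  haveI tow : IsScalarTower ℚ K₁ (AlgebraicClosure ℚ) :=
    IsScalarTower.of_algebraMap_eq (fun a => (φ.commutes a).symm)
  haveI : Algebra.IsAlgebraic ℚ (AlgebraicClosure ℚ) := AlgebraicClosure.isAlgebraic ℚ
  haveI : Algebra.IsAlgebraic K₁ (AlgebraicClosure ℚ) :=
    Algebra.IsAlgebraic.tower_top (K := ℚ) K₁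
  -- the comparison map
  let ι : ModelField K₁ N →+* ↥(modularFunctionFieldBar N) :=
    Fermat.Agent.H93.KL.klBc φ.toRingHom (modularFunctionFieldFull N)
  have hι : ∀ a : K₁, ι (algebraMap K₁ (ModelField K₁ N) a) =
      algebraMap (AlgebraicClosure ℚ) ↥(modularFunctionFieldBar N)
        (algebraMap K₁ (AlgebraicClosure ℚ) a) := fun a =>
    Fermat.Agent.H73.KLDesc.klBc_algebraMap φ.toRingHom (modularFunctionFieldFull N) a
  have hxt : ι x = h9Bar N h9 := by
    apply Subtype.ext
    show coeffMap φ.toRingHom (x : LaurentSeries K₁) = h9S (AlgebraicClosure ℚ)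
    rw [hx, coeffEmb, coeffMap_coeffMap]
    exact coeffMap_h9S _
  -- algebraicity over `K₁(x)`
  haveI hfin' : FiniteDimensional Kbar⟮ι x⟯ FN := by
    rw [hxt]
    exact h9Bar_finiteDimensional N h9
  haveI : Algebra.IsAlgebraic Kbar⟮ι x⟯ FN := Algebra.IsAlgebraic.of_finite _ _
  haveI : Algebra.IsAlgebraic K₁⟮x⟯ (ModelField K₁ N) := klbr_isAlgebraic_descent ι hι x
  exact unramifiedNear_h9_generic N h9 ϖ ι hι x hxt g hg0 hgQ

end model

end Fermat.Agent.H31.SS
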